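import Fermat.Agent.LT.Mult.Coef

/-!
# Multiplicity: the archimedean coefficient is unique up to a scalar

Testing the eigenfunction equation against `exp (-λ cosh d)` gives an integral equation whose
kernel is symmetric under `λ ↔ 4π t`; hence `W(t) = ρ(t) W(1)` with `ρ` independent of the function.
-/

set_option autoImplicit false
set_option linter.unusedSectionVars false
open NumberField MeasureTheory Filter
open scoped Classical Real Topology

namespace Fermat.LT.Mult

/-- The measure `dζ ds` on the upper half space. -/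
noncomputable abbrev hsm : Measure (ℂ × ℝ) :=
  (volume : Measure ℂ).prod ((volume : Measure ℝ).restrict (Set.Ioi 0))

/-- Lebesgue measure restricted to the upper half space. -/
lemma restrict_eq_hsm :
    (volume : Measure (ℂ × ℝ)).restrict ((Set.univ : Set ℂ) ×ˢ Set.Ioi (0 : ℝ)) = hsm := by
  rw [Measure.volume_eq_prod, ← Measure.prod_restrict, Measure.restrict_univ]

/-- Almost every point has positive height. -/
lemma ae_pos_hsm : ∀ᵐ p : ℂ × ℝ ∂hsm, 0 < p.2 := by
  rw [← restrict_eq_hsm]
  filter_upwards [ae_restrict_mem (MeasurableSet.univ.prod measurableSet_Ioi)] with p hp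
  exact hp.2

/-- `exp (-λ cosh d) / s³` based at height `t`. -/
noncomputable def ker0 (lam t : ℝ) (p : ℂ × ℝ) : ℝ :=
  (p.2 ^ 3)⁻¹ * Real.exp (-lam * cd (0, t) p)

/-- The factor `exp (-(λ/2) (t/s + s/t))`. -/
noncomputable def efac (lam t s : ℝ) : ℝ := Real.exp (-(lam / 2) * (t / s + s / t))

/-- The kernel is measurable. -/
lemma measurable_ker0 (lam t : ℝ) : Measurable (ker0 lam t) := by
  unfold ker0 cd
  simp only [Complex.normSq_apply]
  fun_prop

/-- The based kernel factors into a radial part and a Gaussian in `η`. -/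
lemma ker0_eq {lam t s : ℝ} (ht : 0 < t) (hs : 0 < s) (η : ℂ) :
    ker0 lam t (η, s) = (s ^ 3)⁻¹ * efac lam t s * Real.exp (-(lam / (2 * (t * s))) * ‖η‖ ^ 2) := by
  rw [ker0, efac, mul_assoc, ← Real.exp_add, cd, ← Complex.normSq_eq_norm_sq]
  simp only [zero_sub, Complex.normSq_neg]
  congr 2
  field_simp
  ring

/-- The kernel is nonnegative at positive heights. -/
lemma ker0_nonneg {lam t : ℝ} {p : ℂ × ℝ} (hp : 0 < p.2) : 0 ≤ ker0 lam t p :=
  mul_nonneg (by positivity) (Real.exp_pos _).le

/-- The horizontal Gaussian integral. -/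
lemma integral_gauss {lam t s : ℝ} (hl : 0 < lam) (ht : 0 < t) (hs : 0 < s) :
    ∫ η : ℂ, Real.exp (-(lam / (2 * (t * s))) * ‖η‖ ^ 2) = 2 * π * (t * s) / lam := by
  rw [GaussianFourier.integral_rexp_neg_mul_sq_norm (by positivity), Complex.finrank_real_complex]
  norm_num
  field_simp

/-- The radial factor is small at both ends. -/
lemma efac_le {lam t s : ℝ} (hl : 0 < lam) (ht : 0 < t) (hs : 0 < s) :
    efac lam t s ≤ 8 / (lam * t) ^ 2 * (s ^ 2 * Real.exp (-(lam / (2 * t)) * s)) := by
  rw [efac, show -(lam / 2) * (t / s + s / t) = -(lam * t / (2 * s)) + -(lam / (2 * t)) * s by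
    field_simp; ring, Real.exp_add, ← mul_assoc]
  refine mul_le_mul_of_nonneg_right ?_ (Real.exp_pos _).le
  have hx : 0 ≤ lam * t / (2 * s) := by positivity
  have h := Real.quadratic_le_exp_of_nonneg hx
  rw [Real.exp_neg, show 8 / (lam * t) ^ 2 * s ^ 2 =
    ((lam * t / (2 * s)) ^ 2 / 2)⁻¹ by field_simp; ring]
  exact inv_anti₀ (by positivity) (by linarith)

/-- The radial factor over `s²` is integrable. -/
lemma integrableOn_efac_div_sq {lam t : ℝ} (hl : 0 < lam) (ht : 0 < t) :
    IntegrableOn (fun s => efac lam t s / s ^ 2) (Set.Ioi 0) := by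
  refine Integrable.mono'
    (((exp_neg_integrableOn_Ioi (0 : ℝ) (b := lam / (2 * t)) (by positivity))).const_mul
    (8 / (lam * t) ^ 2)) (by unfold efac; exact Measurable.aestronglyMeasurable (by fun_prop)) ?_
  filter_upwards [ae_restrict_mem measurableSet_Ioi] with s (hs : (0 : ℝ) < s)
  have h0 : 0 ≤ efac lam t s := (Real.exp_pos _).le
  rw [Real.norm_of_nonneg (div_nonneg h0 (by positivity)), div_le_iff₀ (by positivity)]
  exact (efac_le hl ht hs).trans (le_of_eq (by ring))

/-- The radial factor over `s` is integrable on the positive axis. -/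
lemma integrableOn_efac_div {lam t : ℝ} (hl : 0 < lam) (ht : 0 < t) :
    IntegrableOn (fun s => efac lam t s / s) (Set.Ioi 0) := by
  set b := lam / (2 * t) with hb
  have hb0 : 0 < b := by positivity
  refine Integrable.mono'
    (((exp_neg_integrableOn_Ioi (0 : ℝ) (b := b / 2) (by positivity))).const_mul
    (8 / (lam * t) ^ 2 * (2 / b))) (by
      unfold efac; exact Measurable.aestronglyMeasurable (by fun_prop)) ?_
  filter_upwards [ae_restrict_mem measurableSet_Ioi] with s (hs : (0 : ℝ) < s)
  have h0 : 0 ≤ efac lam t s := (Real.exp_pos _).le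
  rw [Real.norm_of_nonneg (div_nonneg h0 hs.le), div_le_iff₀ hs]
  refine (efac_le hl ht hs).trans ?_
  rw [← hb, show 8 / (lam * t) ^ 2 * (2 / b) * Real.exp (-(b / 2) * s) * s
    = 8 / (lam * t) ^ 2 * (s * (2 / b * Real.exp (-(b / 2) * s))) by ring, sq s, mul_assoc s s]
  refine mul_le_mul_of_nonneg_left (mul_le_mul_of_nonneg_left ?_ hs.le) (by positivity)
  have h := Real.add_one_le_exp (b / 2 * s)
  rw [show -b * s = -(b / 2) * s + -(b / 2 * s) by ring, Real.exp_add, Real.exp_neg]
  have : s ≤ 2 / b * Real.exp (b / 2 * s) := by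
    rw [div_mul_eq_mul_div, le_div_iff₀ hb0]; linarith
  calc s * (Real.exp (-(b / 2) * s) * (Real.exp (b / 2 * s))⁻¹)
      ≤ 2 / b * Real.exp (b / 2 * s) * (Real.exp (-(b / 2) * s) * (Real.exp (b / 2 * s))⁻¹) :=
        mul_le_mul_of_nonneg_right this (by positivity)
    _ = 2 / b * Real.exp (-(b / 2) * s) := by field_simp [Real.exp_ne_zero]

/-- The based exponential kernel is integrable. -/
lemma integrable_ker0 {lam t : ℝ} (hl : 0 < lam) (ht : 0 < t) : Integrable (ker0 lam t) hsm := by
  refine (integrable_prod_iff' (measurable_ker0 lam t).aestronglyMeasurable).2 ⟨?_, ?_⟩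
  · filter_upwards [ae_restrict_mem measurableSet_Ioi] with s (hs : (0 : ℝ) < s)
    simp only [ker0_eq ht hs]
    refine Integrable.const_mul ?_ _
    exact MeasureTheory.Integrable.of_integral_ne_zero (by rw [integral_gauss hl ht hs]; positivity)
  · refine ((integrableOn_efac_div_sq hl ht).const_mul (2 * π * t / lam)).congr ?_
    filter_upwards [ae_restrict_mem measurableSet_Ioi] with s (hs : (0 : ℝ) < s)
    have : ∀ η : ℂ, ‖ker0 lam t (η, s)‖ =
        (s ^ 3)⁻¹ * efac lam t s * Real.exp (-(lam / (2 * (t * s))) * ‖η‖ ^ 2) :=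
      fun η => by rw [Real.norm_of_nonneg (ker0_nonneg hs), ker0_eq ht hs]
    simp only [this]
    rw [integral_const_mul, integral_gauss hl ht hs]
    field_simp

/-- The based exponential kernel times the height is integrable. -/
lemma integrable_ker0_mul {lam t : ℝ} (hl : 0 < lam) (ht : 0 < t) :
    Integrable (fun p => ker0 lam t p * p.2) hsm := by
  refine (integrable_prod_iff' ((measurable_ker0 lam t).mul measurable_snd).aestronglyMeasurable).2
    ⟨?_, ?_⟩
  · filter_upwards [ae_restrict_mem measurableSet_Ioi] with s (hs : (0 : ℝ) < s)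
    simp only [Pi.mul_apply, ker0_eq ht hs]
    refine (Integrable.const_mul ?_ _).mul_const _
    exact MeasureTheory.Integrable.of_integral_ne_zero (by rw [integral_gauss hl ht hs]; positivity)
  · refine ((integrableOn_efac_div hl ht).const_mul (2 * π * t / lam)).congr ?_
    filter_upwards [ae_restrict_mem measurableSet_Ioi] with s (hs : (0 : ℝ) < s)
    have : ∀ η : ℂ, ‖ker0 lam t (η, s) * s‖
        = (s ^ 3)⁻¹ * efac lam t s * s * Real.exp (-(lam / (2 * (t * s))) * ‖η‖ ^ 2) :=
      fun η => by rw [Real.norm_of_nonneg (mul_nonneg (ker0_nonneg hs) hs.le), ker0_eq ht hs]; ring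
    simp only [Pi.mul_apply, this]
    rw [integral_const_mul, integral_gauss hl ht hs]
    field_simp

/-- The transform of `exp (-λ cosh d)`. -/
noncomputable def hExp (lam : ℝ) : ℝ := ∫ p, ker0 lam 1 p * p.2 ∂hsm

/-- The transform of `exp (-λ cosh d)` is nonzero. -/
lemma hExp_ne_zero {lam : ℝ} (hl : 0 < lam) : hExp lam ≠ 0 := by
  refine ne_of_gt ((integral_pos_iff_support_of_nonneg_ae ?_ (integrable_ker0_mul hl one_pos)).2 ?_)
  · filter_upwards [ae_pos_hsm] with p hp
    exact mul_nonneg (ker0_nonneg hp) hp.le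
  · refine lt_of_lt_of_le ?_ (measure_mono (s := (Set.univ : Set ℂ) ×ˢ Set.Ioi (0 : ℝ)) ?_)
    · rw [Measure.prod_prod, Measure.restrict_apply measurableSet_Ioi, Set.inter_self,
        Real.volume_Ioi]
      exact ENNReal.mul_pos (NeZero.ne _) (by simp)
    · rintro ⟨η, s⟩ ⟨-, hs⟩
      have hs' : (0 : ℝ) < s := hs
      rw [Function.mem_support, ker0_eq one_pos hs']
      have := Real.exp_pos (-(lam / 2) * (1 / s + s / 1))
      unfold efac
      positivity

/-- The continuous cut-off equal to one for `|c| ≤ n` and zero for `|c| ≥ n + 1`. -/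
noncomputable def cut (n : ℕ) (c : ℝ) : ℝ := min 1 (max 0 ((n : ℝ) + 1 - |c|))

/-- The cutoffs are continuous. -/
lemma continuous_cut (n : ℕ) : Continuous (cut n) := by unfold cut; fun_prop

/-- The cutoff functions have compact support. -/
lemma hasCompactSupport_cut (n : ℕ) : HasCompactSupport (cut n) := by
  refine HasCompactSupport.intro (isCompact_Icc (a := -((n : ℝ) + 1)) (b := (n : ℝ) + 1))
    fun c hc => ?_
  have : (n : ℝ) + 1 - |c| ≤ 0 := by
    rw [Set.mem_Icc, not_and_or, not_le, not_le] at hc
    have := le_abs_self c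
    have := neg_le_abs c
    rcases hc with h | h <;> linarith
  simp [cut, max_eq_left this]

/-- The cutoff functions are bounded by `1`. -/
lemma norm_cut_le (n : ℕ) (c : ℝ) : |cut n c| ≤ 1 := by
  rw [abs_le, cut]
  constructor
  · have : (0 : ℝ) ≤ min 1 (max 0 ((n : ℝ) + 1 - |c|)) := le_min zero_le_one (le_max_left _ _)
    linarith
  · exact min_le_left _ _

/-- The cutoff functions tend to `1` pointwise. -/
lemma tendsto_cut (c : ℝ) : Tendsto (fun n => cut n c) atTop (𝓝 1) := by
  refine tendsto_const_nhds.congr' ?_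
  obtain ⟨N, hN⟩ := exists_nat_ge |c|
  filter_upwards [eventually_ge_atTop N] with n hn
  have hn' : (N : ℝ) ≤ n := by exact_mod_cast hn
  rw [cut, max_eq_right (by linarith), min_eq_left (by linarith)]

/-- The point with coordinates `(0, 1)` is the base point. -/
lemma mk_zero_one : H3.mk 0 1 = ((1 : GL (Fin 2) ℂ) : H3) := by
  rw [H3.mk_of_pos 0 one_pos]
  congr 1
  refine Units.ext (Matrix.ext fun i j => ?_)
  fin_cases i <;> fin_cases j <;> simp [triMat]

variable {F : Type*} [Field F] [NumberField F] {S : Set (Place F)}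

/-- The archimedean condition tested on `exp (-λ cosh d)`, for a function of the
archimedean variables. -/
theorem arch_exp_gen {f : (InfinitePlace F → H3) → ℂ} (hf : Continuous f) {C : ℝ}
    (hC : ∀ p, ‖f p‖ ≤ C)
    (ha : ∀ (w : InfinitePlace F) (k : ℝ → ℝ), Continuous k → HasCompactSupport k →
    ∀ x : InfinitePlace F → H3,
      hIntegral (fun y => (k (coshd (x w) y) : ℂ) * f (Function.update x w y)) = hhat0 k * f x)
    (w : InfinitePlace F) (z : InfinitePlace F → ℂ) {t : InfinitePlace F → ℝ} (ht : Pos t) {lam : ℝ}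
    (hl : 0 < lam) :
    ∫ p, (ker0 lam (t w) p : ℂ) * f (pnt (z + Pi.single w p.1) (Function.update t w p.2)) ∂hsm
      = (hExp lam : ℂ) * f (pnt z t) := by
  set x := pnt z t
  let k : ℕ → ℝ → ℝ := fun n c => Real.exp (-lam * c) * cut n c
  have hk : ∀ n, Continuous (k n) ∧ HasCompactSupport (k n) := fun n =>
    ⟨(by fun_prop : Continuous fun c : ℝ => Real.exp (-lam * c)).mul (continuous_cut n),
      (hasCompactSupport_cut n).mul_left⟩
  let T : ℂ × ℝ → ℂ := fun p => f (Function.update x w (hmk p))
  have hT : Measurable T := hf.measurable.comp ((measurable_update x).comp measurable_hmk)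
  -- the condition for the truncated exponentials
  have hid : ∀ n, ∫ p, (((p.2 ^ 3)⁻¹ * k n (cd (z w, t w) p) : ℝ) : ℂ) * T p ∂hsm
      = (∫ p, ((((p.2 ^ 3)⁻¹ * (k n (cd (0, 1) p) * p.2)) : ℝ) : ℂ) ∂hsm) * f (pnt z t) := by
    intro n
    have h := ha w (k n) (hk n).1 (hk n).2 x
    simp only [hIntegral, hhat0, restrict_eq_hsm] at h
    refine Eq.trans ?_ (h.trans ?_)
    · refine integral_congr_ae ?_
      filter_upwards [ae_pos_hsm] with p hp
      rw [Complex.real_smul, show coshd (x w) (H3.mk p.1 p.2) = cd (z w, t w) p from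
        coshd_mk _ _ (ht w) hp]
      simp only [T, hmk]
      push_cast
      ring
    · congr 1
      refine integral_congr_ae ?_
      filter_upwards [ae_pos_hsm] with p hp
      rw [← mk_zero_one, coshd_mk _ _ one_pos hp]
  have hshift : MeasurePreserving (fun p : ℂ × ℝ => (z w + p.1, p.2)) hsm hsm :=
    (measurePreserving_add_left volume (z w)).prod (MeasurePreserving.id _)
  have hemb : MeasurableEmbedding (fun p : ℂ × ℝ => (z w + p.1, p.2)) :=
    ((MeasurableEquiv.addLeft (z w)).prodCongr (MeasurableEquiv.refl ℝ)).measurableEmbedding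
  have hcd : ∀ (η : ℂ) (s : ℝ), cd (z w, t w) (z w + η, s) = cd (0, t w) (η, s) := fun η s => by
    simp only [cd, sub_add_cancel_left, zero_sub]
  have hL : ∀ (g : ℝ → ℝ), ∫ p, (((p.2 ^ 3)⁻¹ * g (cd (z w, t w) p) : ℝ) : ℂ) * T p ∂hsm
      = ∫ p, (((p.2 ^ 3)⁻¹ * g (cd (0, t w) p) : ℝ) : ℂ)
          * f (pnt (z + Pi.single w p.1) (Function.update t w p.2)) ∂hsm := fun g => by
    rw [← hshift.integral_comp hemb]
    refine integral_congr_ae (Eventually.of_forall fun p => ?_)
    simp only [T, hmk, hcd]
    congr 2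
    funext u
    rcases eq_or_ne u w with rfl | hu
    · simp [pnt]
    · simp [x, pnt, Function.update_of_ne hu, Pi.single_eq_of_ne hu]
  -- both sides converge as the cutoffs tend to one
  have hlim1 : Tendsto (fun n => ∫ p, (((p.2 ^ 3)⁻¹ * k n (cd (z w, t w) p) : ℝ) : ℂ) *
      T p ∂hsm) atTop
      (𝓝 (∫ p, (ker0 lam (t w) p : ℂ) *
          f (pnt (z + Pi.single w p.1) (Function.update t w p.2)) ∂hsm)) := by
    have e : ∫ p, (ker0 lam (t w) p : ℂ) *
        f (pnt (z + Pi.single w p.1) (Function.update t w p.2)) ∂hsm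
        = ∫ p, (((p.2 ^ 3)⁻¹ * Real.exp (-lam * cd (z w, t w) p) : ℝ) : ℂ) * T p ∂hsm :=
      (hL fun c => Real.exp (-lam * c)).symm
    rw [e]
    refine tendsto_integral_of_dominated_convergence
      (fun p => C * ((p.2 ^ 3)⁻¹ * Real.exp (-lam * cd (z w, t w) p))) (fun n => ?_) ?_
        (fun n => ?_) ?_
    · refine (Measurable.mul (Complex.measurable_ofReal.comp ?_) hT).aestronglyMeasurable
      simp only [k, cd, Complex.normSq_apply]
      unfold cut
      fun_prop
    · refine Integrable.const_mul ?_ C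
      rw [← hshift.integrable_comp_emb hemb]
      exact (integrable_ker0 hl (ht w)).congr (Eventually.of_forall fun p => by
        simp [ker0, hcd])
    · filter_upwards [ae_pos_hsm] with p hp
      rw [norm_mul, Complex.norm_real, Real.norm_eq_abs, abs_mul, abs_of_nonneg (by positivity :
        (0 : ℝ) ≤ (p.2 ^ 3)⁻¹), mul_comm C]
      refine mul_le_mul (mul_le_mul_of_nonneg_left ?_ (by positivity)) (hC _) (norm_nonneg _)
        (by positivity)
      rw [abs_mul, Real.abs_exp]
      exact mul_le_of_le_one_right (Real.exp_pos _).le (norm_cut_le n _)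
    · refine Eventually.of_forall fun p => ?_
      refine Tendsto.mul_const _
        ((Complex.continuous_ofReal.tendsto _).comp (Tendsto.const_mul _ ?_))
      simpa [k] using (tendsto_cut (cd (z w, t w) p)).const_mul (Real.exp (-lam * cd (z w, t w) p))
  have hlim2 : Tendsto (fun n => ∫ p,
      ((((p.2 ^ 3)⁻¹ * (k n (cd (0, 1) p) * p.2)) : ℝ) : ℂ) ∂hsm) atTop
      (𝓝 ((hExp lam : ℝ) : ℂ)) := by
    simp only [integral_complex_ofReal]
    refine (Complex.continuous_ofReal.tendsto _).comp ?_
    refine tendsto_integral_of_dominated_convergence (fun p => ker0 lam 1 p * p.2) (fun n => ?_)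
      (integrable_ker0_mul hl one_pos) (fun n => ?_) ?_
    · refine Measurable.aestronglyMeasurable ?_
      simp only [k, cd, Complex.normSq_apply]
      unfold cut
      fun_prop
    · filter_upwards [ae_pos_hsm] with p hp
      rw [Real.norm_eq_abs, ker0, abs_mul, abs_mul, abs_of_nonneg (by positivity :
        (0 : ℝ) ≤ (p.2 ^ 3)⁻¹), abs_of_pos hp, mul_assoc]
      refine mul_le_mul_of_nonneg_left (mul_le_mul_of_nonneg_right ?_ hp.le) (by positivity)
      rw [abs_mul, Real.abs_exp]
      exact mul_le_of_le_one_right (Real.exp_pos _).le (norm_cut_le n _)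
    · refine Eventually.of_forall fun p => ?_
      rw [ker0, mul_assoc]
      refine Tendsto.const_mul _ (Tendsto.mul_const _ ?_)
      simpa [k] using (tendsto_cut (cd (0, 1) p)).const_mul (Real.exp (-lam * cd (0, 1) p))
  exact tendsto_nhds_unique (hlim1.congr fun n => hid n) (hlim2.mul_const _)

/-- The integral against the kernel symmetric in `λ` and `4π t`. -/
noncomputable def gint (lam t : ℝ) (u : ℝ → ℂ) : ℂ :=
  ∫ s in Set.Ioi (0 : ℝ),
    ((efac lam t s * Real.exp (-(8 * π ^ 2 * t * s / lam)) / s ^ 2 : ℝ) : ℂ) * u s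

/-- Scaling moves the height into the exponent. -/
lemma gint_symm (t : ℝ) (ht : 0 < t) (u : ℝ → ℂ) : gint (4 * π * t) 1 u = gint (4 * π) t u := by
  refine setIntegral_congr_fun measurableSet_Ioi fun s (hs : 0 < s) => ?_
  simp only [efac, ← Real.exp_add]
  have hπ : π ≠ 0 := Real.pi_ne_zero
  congr 4
  field_simp
  ring

/-- The Fourier transform of a Gaussian on `ℂ` at the standard character. -/
lemma integral_gauss_char {b : ℝ} (hb : 0 < b) :
    ∫ η : ℂ, ((Real.exp (-b * ‖η‖ ^ 2) : ℝ) : ℂ) * Complex.exp (4 * π * Complex.I * (η.re : ℂ))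
      = ((π / b * Real.exp (-(4 * π ^ 2 / b)) : ℝ) : ℂ) := by
  have h := GaussianFourier.integral_cexp_neg_mul_sq_norm_add (b := (b : ℂ)) (by simpa using hb)
    (4 * π * Complex.I) (1 : ℂ)
  rw [Complex.finrank_real_complex] at h
  refine Eq.trans (integral_congr_ae (Eventually.of_forall fun η => ?_)) (h.trans ?_)
  · simp only [Complex.ofReal_exp, ← Complex.exp_add]
    congr 1
    rw [show inner ℝ (1 : ℂ) η = η.re by simp [Complex.inner]]
    push_cast
    ring
  · norm_num
    left
    rw [mul_pow, mul_pow, Complex.I_sq]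
    congr 1
    field_simp

variable [Finite S] [IsTotallyComplex F]

omit [Finite S] [IsTotallyComplex F] in
/-- The point of the upper half spaces with given coordinates is measurable in them. -/
lemma measurable_pnt {α : Type*} [MeasurableSpace α] {a : α → InfinitePlace F → ℂ}
    {b : α → InfinitePlace F → ℝ} (ha : Measurable a) (hb : Measurable b) :
    Measurable fun r => pnt (a r) (b r) :=
  measurable_pi_lambda _ fun w =>
    (measurable_hmk.comp
      (((measurable_pi_apply w).comp ha).prodMk ((measurable_pi_apply w).comp hb)) :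
      Measurable fun r => hmk (a r w, b r w))

/-- One period serves all horosphere restrictions of a basic function, also against the
character. -/
lemma exists_period (ω : FinPt F S) : ∃ M : ℕ, M ≠ 0 ∧ ∀ (Φ : Pt F S → ℂ), IsBasic Φ →
    ∀ t : InfinitePlace F → ℝ, Pos t → Per M (slice Φ ω t) ∧
      Per M fun z => slice Φ ω t z * chi (-z) := by
  obtain ⟨E, n, hn0, hn⟩ := exists_fix_exp ω
  obtain ⟨M, hM, hMv⟩ := exists_nat_small (F := F) n
    (E.finite_toSet.subset fun v hv => by by_contra h; exact hv (hn0 v h))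
  refine ⟨M, hM, fun Φ hΦ t ht => ?_⟩
  have hp : Per M (slice Φ ω t) := fun z l => by
    have hfix : upMat (1 : Fˣ) ((M : F) * (l : F)) • ω = ω :=
        Subtype.ext (funext fun v => hn v _ (by
      rw [map_mul]
      exact (mul_le_of_le_one_right' (v.valuation_le_one l)).trans (hMv v)))
    have h := hΦ.slice_translate ((M : F) * (l : F)) ω z ht
    rwa [hfix] at h
  refine ⟨hp, hp.mul fun z l => ?_⟩
  show chi _ = chi _
  rw [neg_add, chi_add, show (M : F) * (l : F) = (((M : 𝓞 F) * l : 𝓞 F) : F) by push_cast; rfl,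
    show chi (-emb (((M : 𝓞 F) * l : 𝓞 F) : F)) = 1 from chiF_int _, mul_one]

/-- The character on one coordinate. -/
lemma chi_single (w : InfinitePlace F) (η : ℂ) :
    chi (Pi.single w η : InfinitePlace F → ℂ) = Complex.exp (4 * π * Complex.I * (η.re : ℂ)) := by
  have : trS (Pi.single w η : InfinitePlace F → ℂ) = 2 * η.re := by
    change ∑ u, 2 * ((Pi.single w η : InfinitePlace F → ℂ) u).re = _
    rw [Finset.sum_eq_single w (fun u _ hu => by simp [hu]) (by simp)]
    simp
  rw [chi, this]
  push_cast
  ring_nf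

/-- Shifting the argument at one place is jointly measurable. -/
lemma measurable_shift_arg {α : Type*} [MeasurableSpace α] (w : InfinitePlace F)
    {f : α → InfinitePlace F → ℂ} (hf : Measurable f) :
    Measurable fun r : α × (ℂ × ℝ) => f r.1 + (Pi.single w r.2.1 : InfinitePlace F → ℂ) := by
  refine measurable_pi_lambda _ fun u => ?_
  refine ((measurable_pi_apply u).comp (hf.comp measurable_fst)).add ?_
  rcases eq_or_ne u w with rfl | hu
  · simp only [Pi.single_eq_same]
    exact (measurable_snd (α := α)).fst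
  · simp [Pi.single_eq_of_ne hu]

/-- **The integral equation**, for a function of the archimedean variables. -/
theorem Wh_gint_gen {f : (InfinitePlace F → H3) → ℂ} (hf : Continuous f)
    (hP : ∀ t : InfinitePlace F → ℝ, Pos t → IsPer fun z => f (pnt z t) * chi (-z)) {M : ℕ}
    (hM : M ≠ 0) (hper : ∀ t : InfinitePlace F → ℝ, Pos t → Per M fun z => f (pnt z t) * chi (-z))
    {C : ℝ} (hC : ∀ p, ‖f p‖ ≤ C)
    (ha : ∀ (w : InfinitePlace F) (k : ℝ → ℝ), Continuous k → HasCompactSupport k →
    ∀ x : InfinitePlace F → H3,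
      hIntegral (fun y => (k (coshd (x w) y) : ℂ) * f (Function.update x w y)) = hhat0 k * f x)
    (w : InfinitePlace F) {t : InfinitePlace F → ℝ} (ht : Pos t) {lam : ℝ} (hl : 0 < lam) :
    (hExp lam : ℂ) * (mean fun z => f (pnt z t) * chi (-z))
      = ((2 * π * t w / lam : ℝ) : ℂ) * gint lam (t w) fun s => mean fun z =>
        f (pnt z (Function.update t w s)) * chi (-z) := by
  set t0 := t w with ht0
  let par' : Tor F → InfinitePlace F → ℂ := fun q => par M fun i => rep (q i)
  have hpar : Measurable par' := (continuous_par M).measurable.comp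
    (measurable_pi_lambda _ fun i => measurable_rep.comp (measurable_pi_apply i))
  let G : Tor F × (ℂ × ℝ) → ℂ := fun r => (ker0 lam t0 r.2 : ℂ)
    * (f (pnt (par' r.1 + Pi.single w r.2.1) (Function.update t w r.2.2)) * chi (-par' r.1))
  have hGm : Measurable G := by
    have h1 : Measurable fun r : Tor F × (ℂ × ℝ) => (ker0 lam t0 r.2 : ℂ) :=
      Complex.measurable_ofReal.comp ((measurable_ker0 _ _).comp measurable_snd)
    have h2 : Measurable fun r : Tor F × (ℂ × ℝ) =>
        f (pnt (par' r.1 + Pi.single w r.2.1) (Function.update t w r.2.2)) := by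
      exact hf.measurable.comp (measurable_pnt (measurable_shift_arg w hpar)
        ((measurable_update t).comp (measurable_snd (α := Tor F)).snd))
    exact h1.mul (h2.mul (continuous_chi.measurable.comp (hpar.comp measurable_fst).neg))
  have hGi : Integrable G ((tmeas F).prod hsm) := by
    refine Integrable.mono' ((integrable_const C).mul_prod (integrable_ker0 hl (ht w)))
      hGm.aestronglyMeasurable ?_
    have hpos : ∀ᵐ r : Tor F × (ℂ × ℝ) ∂((tmeas F).prod hsm), 0 < r.2.2 :=
      Measure.quasiMeasurePreserving_snd.ae ae_pos_hsm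
    filter_upwards [hpos] with r hr
    simp only [G, norm_mul, Complex.norm_real, norm_chi, mul_one,
      Real.norm_of_nonneg (ker0_nonneg hr)]
    rw [mul_comm C]
    exact mul_le_mul_of_nonneg_left (hC _) (ker0_nonneg hr)
  -- integrating over the torus first gives the left side
  have harch : ∀ q, ∫ p, (ker0 lam t0 p : ℂ)
      * f (pnt (par' q + Pi.single w p.1) (Function.update t w p.2)) ∂hsm
      = (hExp lam : ℂ) * f (pnt (par' q) t) := fun q => arch_exp_gen hf hC ha w (par' q) ht hl
  have h1 : ∫ q, ∫ p, G (q, p) ∂hsm ∂tmeas F =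
      (hExp lam : ℂ) * (mean fun z => f (pnt z t) * chi (-z)) := by
    rw [mean_eq hM (hper t ht) (hP t ht).1, meanM, ← integral_const_mul]
    refine integral_congr_ae (Eventually.of_forall fun q => ?_)
    simp only [G, tlift, ← mul_assoc]
    rw [integral_mul_const, harch q, mul_assoc]
  set u : ℝ → ℂ := fun s => mean fun z => f (pnt z (Function.update t w s)) * chi (-z) with hu
  -- at a fixed point the torus integral is a character times the mean at the new height
  have h2 : ∀ᵐ p ∂hsm, ∫ q, G (q, p) ∂tmeas F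
      = (ker0 lam t0 p : ℂ) * Complex.exp (4 * π * Complex.I * (p.1.re : ℂ)) * u p.2 := by
    filter_upwards [ae_pos_hsm] with p hp
    have ht' : Pos (Function.update t w p.2) := fun v => by
      rcases eq_or_ne v w with rfl | hv
      · simpa using hp
      · simpa [Function.update_of_ne hv] using ht v
    simp only [G]
    rw [integral_const_mul, mul_assoc]
    congr 1
    have hf' := hP _ ht'
    have e : (mean fun z => f (pnt z (Function.update t w p.2)) * chi (-z))
        = ∫ q, f (pnt (par' q + Pi.single w p.1) (Function.update t w p.2))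
            * chi (-(par' q + Pi.single w p.1)) ∂tmeas F := by
      rw [← mean_translate hf' (Pi.single w p.1), mean_eq hM ((hper _ ht').comp_add _)
        (hf'.1.comp (continuous_id.add continuous_const)), meanM]
      rfl
    simp only [hu]
    rw [e, ← chi_single w p.1, ← integral_const_mul]
    refine integral_congr_ae (Eventually.of_forall fun q => ?_)
    simp only
    rw [neg_add, chi_add]
    have : chi (Pi.single w p.1 : InfinitePlace F → ℂ) * chi (-Pi.single w p.1) = 1 := by
      rw [← chi_add, add_neg_cancel, chi_zero]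
    linear_combination
      (-(f (pnt (par' q + Pi.single w p.1) (Function.update t w p.2)) * chi (-par' q))) * this
  rw [← h1, integral_integral_swap hGi, integral_congr_ae h2,
    integral_prod_symm _ ((hGi.integral_prod_right).congr h2), gint, ← integral_const_mul]
  refine integral_congr_ae ?_
  -- the horizontal integral is a Gaussian one
  filter_upwards [ae_restrict_mem measurableSet_Ioi] with s (hs : (0 : ℝ) < s)
  rw [integral_mul_const, ← mul_assoc]
  congr 1
  simp only [ker0_eq (show 0 < t0 from ht w) hs, Complex.ofReal_mul, mul_assoc]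
  have hg := integral_gauss_char (b := lam / (2 * (t0 * s))) (by
    have h0 : 0 < t0 := ht w
    positivity)
  simp only [mul_assoc] at hg
  rw [integral_const_mul, integral_const_mul, hg]
  rw [← Complex.ofReal_mul, ← Complex.ofReal_mul, ← Complex.ofReal_mul]
  congr 1
  have hπ : π ≠ 0 := Real.pi_ne_zero
  have := (ht w).ne'
  rw [show 4 * π ^ 2 / (lam / (2 * (t0 * s))) = 8 * π ^ 2 * t0 * s / lam by field_simp; ring]
  field_simp

/-- **The integral equation.** The coefficient of a bounded eigenfunction satisfies, in each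
archimedean variable, the equation obtained by testing against `exp (-λ cosh d)`. -/
theorem Wh_gint {Φ : Pt F S → ℂ} (hΦ : IsBasic Φ) {C : ℝ} (hC : ∀ p, ‖Φ p‖ ≤ C) (ha : IsArchEigen Φ)
    (w : InfinitePlace F) (ω : FinPt F S) {t : InfinitePlace F → ℝ} (ht : Pos t) {lam : ℝ}
    (hl : 0 < lam) :
    (hExp lam : ℂ) * Wh Φ ω t
      = ((2 * π * t w / lam : ℝ) : ℂ) * gint lam (t w) fun s => Wh Φ ω (Function.update t w s) := by
  obtain ⟨M, hM, hper⟩ := exists_period ω
  exact Wh_gint_gen (f := fun x => Φ (ω, x)) (hΦ.continuous ω) (fun t ht => hΦ.isPer_Wh ω ht) hM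
    (fun t ht => (hper Φ hΦ t ht).2) (fun _ => hC _) (fun w k hk hk' x =>
      ha w k hk hk' (ω, x)) w ht hl

/-- The archimedean coefficient function. -/
noncomputable def rho (s : ℝ) : ℂ := ((s ^ 2 * hExp (4 * π * s) / hExp (4 * π) : ℝ) : ℂ)

/-- A solution of the integral equation is a fixed multiple of its value at `1`. -/
theorem eq_rho_mul_of_gint {W : (InfinitePlace F → ℝ) → ℂ} (w : InfinitePlace F)
    (hgint : ∀ {t : InfinitePlace F → ℝ}, Pos t → ∀ {lam : ℝ}, 0 < lam → (hExp lam : ℂ) * W t
      = ((2 * π * t w / lam : ℝ) : ℂ) * gint lam (t w) fun s => W (Function.update t w s))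
    {t : InfinitePlace F → ℝ} (ht : Pos t) : W t = rho (t w) * W (Function.update t w 1) := by
  have ht1 : Pos (Function.update t w 1) := fun v => by
    rcases eq_or_ne v w with rfl | hv
    · simp
    · simpa [Function.update_of_ne hv] using ht v
  have hpi : (0 : ℝ) < 4 * π := by positivity
  have e1 := hgint ht hpi
  have e2 := hgint ht1 (mul_pos hpi (ht w))
  simp only [Function.update_self, Function.update_idem] at e2
  rw [gint_symm _ (ht w)] at e2
  have hne : ((hExp (4 * π) : ℝ) : ℂ) ≠ 0 := by exact_mod_cast hExp_ne_zero hpi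
  set W1 := W (Function.update t w 1)
  set G := gint (4 * π) (t w) fun s => W (Function.update t w s)
  have htne : ((t w : ℝ) : ℂ) ≠ 0 := by exact_mod_cast (ht w).ne'
  have hπc : (π : ℂ) ≠ 0 := by exact_mod_cast Real.pi_ne_zero
  push_cast at e1 e2
  rw [rho]
  push_cast
  field_simp at e1 e2 ⊢
  linear_combination (1 / 4 : ℂ) * e1 - ((t w : ℝ) : ℂ) / 4 * e2

/-- At each place the coefficient depends on the height through `rho`. -/
theorem Wh_update {Φ : Pt F S → ℂ} (hΦ : IsBasic Φ) {C : ℝ} (hC : ∀ p, ‖Φ p‖ ≤ C)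
    (ha : IsArchEigen Φ) (w : InfinitePlace F) (ω : FinPt F S) {t : InfinitePlace F → ℝ}
    (ht : Pos t) :
    Wh Φ ω t = rho (t w) * Wh Φ ω (Function.update t w 1) :=
  eq_rho_mul_of_gint w (fun ht _ hl => Wh_gint hΦ hC ha w ω ht hl) ht

/-- **`W(t)` is a fixed multiple of `W(1)`.** -/
theorem Wh_eq_rho_mul {Φ : Pt F S → ℂ} (hΦ : IsBasic Φ) {C : ℝ} (hC : ∀ p, ‖Φ p‖ ≤ C)
    (ha : IsArchEigen Φ) (ω : FinPt F S) {t : InfinitePlace F → ℝ} (ht : Pos t) :
    Wh Φ ω t = (∏ w, rho (t w)) * Wh Φ ω fun _ => 1 := by
  suffices h : ∀ P : Finset (InfinitePlace F),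
      Wh Φ ω t = (∏ w ∈ P, rho (t w)) * Wh Φ ω (fun w => if w ∈ P then 1 else t w) by
    simpa using h Finset.univ
  intro P
  induction P using Finset.induction_on with
  | empty => simp
  | insert u P hu ih =>
    have hp : Pos fun w => if w ∈ P then (1 : ℝ) else t w := fun w => by
      change (0 : ℝ) < if w ∈ P then 1 else t w
      split
      · exact one_pos
      · exact ht w
    rw [ih, Wh_update hΦ hC ha u ω hp, Finset.prod_insert hu]
    have e : Function.update (fun w => if w ∈ P then (1 : ℝ) else t w) u 1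
        = fun w => if w ∈ insert u P then (1 : ℝ) else t w := by
      funext w
      rcases eq_or_ne w u with rfl | hw
      · simp
      · simp [hw]
    rw [e]
    simp only [hu, if_false]
    ring

end Fermat.LT.Mult
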