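import Fermat.Agent.LT.Mult.Coef

/-!
# Multiplicity: local determination of the coefficient

Outside the level the Hecke recursion reduces every vertex to one standard vertex; at a place of
cuspidal type the coefficient lives at one valuation and is determined by two values.
-/

set_option autoImplicit false
set_option linter.unusedSectionVars false
open NumberField MeasureTheory Filter
open scoped Classical

namespace Fermat.LT.Mult

variable {F : Type*} [Field F] [NumberField F] {S : Set (Place F)}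

/-- The vertex of `diag (a, 1)`. -/
noncomputable def dvert (S : Set (Place F)) (v : Place F) (a : Fˣ) : Vert S v :=
  ((upMat a 0 : GL (Fin 2) F) : Vert S v)

variable [IsTotallyComplex F]

/-- A generator of the conductor. -/
noncomputable def dlt (v : Place F) : Fˣ :=
  if cnd v = 0 then 1 else (exists_val_eq v (cnd v)).choose

/-- The generator of the conductor has valuation the conductor exponent. -/
lemma val_dlt (v : Place F) : v.valuation F (dlt v : F) = WithZero.exp (cnd v : ℤ) := by
  unfold dlt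
  split_ifs with h
  · simp [h]
  · exact (exists_val_eq v (cnd v)).choose_spec

/-- The standard vertex outside the level. -/
noncomputable def stdP (S : Set (Place F)) (v : Place F) : Vert S v := dvert S v (dlt v)

/-- The standard vertex is the base vertex at almost all places. -/
lemma eventually_stdP (S : Set (Place F)) :
    ∀ᶠ v : Place F in cofinite, stdP S v = ((1 : GL (Fin 2) F) : Vert S v) := by
  filter_upwards [eventually_cnd_eq_zero (F := F)] with v hv
  rw [stdP, dvert, dlt, if_pos hv, upMat_one]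

/-- One step beyond the conductor. -/
noncomputable def a0 (v : Place F) : Fˣ := (exists_val_eq v ((cnd v : ℤ) + 1)).choose

/-- The valuation of `a0`. -/
lemma val_a0 (v : Place F) : v.valuation F (a0 v : F) = WithZero.exp ((cnd v : ℤ) + 1) :=
  (exists_val_eq v ((cnd v : ℤ) + 1)).choose_spec

/-- The two standard vertices at a place of the level. -/
noncomputable def stdQ (S : Set (Place F)) (v : Place F) (b : Bool) : Vert S v :=
  dvert S v (if b then a0 v else -a0 v)

/-- There is a uniformiser in `F`. -/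
lemma exists_pi (v : Place F) : ∃ u : Fˣ, v.valuation F (u : F) = WithZero.exp (-1 : ℤ) :=
  exists_val_eq v (-1)

variable [Finite S] {Φ : Pt F S → ℂ}

/-- All coefficients at a finite point vanish. -/
def Van (Φ : Pt F S → ℂ) (ω : FinPt F S) : Prop := ∀ t, Pos t → Wh Φ ω t = 0

/-- Vanishing of the coefficients survives a translation at one place. -/
lemma van_set_translate (hΦ : IsBasic Φ) {ω : FinPt F S} {v : Place F} {y : Vert S v} (x : F)
    (h : Van Φ (ω.set v y)) : Van Φ (ω.set v (upMat (1 : Fˣ) x • y)) := fun t ht => by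
  rw [(hΦ.Wh_set ω v x y ht).1, h t ht, mul_zero]

/-- Outside the level the vertex of `diag(a, 1)` depends only on the valuation of `a`. -/
lemma dvert_eq_of_val {v : Place F} (hv : v ∉ S) {a a' : Fˣ}
    (h : v.valuation F (a : F) = v.valuation F (a' : F)) : dvert S v a = dvert S v a' := by
  rw [dvert, dvert, QuotientGroup.eq, lev_of_not_mem hv, upMat_inv, upMat_mul]
  refine le_withScalars _ (upMat_mem_intGL _ ?_ (by simp))
  rw [Units.val_mul, map_mul, Units.val_inv_eq_inv_val, map_inv₀, h,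
    inv_mul_cancel₀ ((v.valuation F).ne_zero_iff.2 a'.ne_zero)]

/-- Outside the level every vertex is a unipotent translate of some `diag(a, 1)`. -/
lemma exists_dvert {v : Place F} (hv : v ∉ S) (y : Vert S v) :
    ∃ (x : F) (a : Fˣ), y = upMat (1 : Fˣ) x • dvert S v a := by
  obtain ⟨g, rfl⟩ := QuotientGroup.mk_surjective y
  obtain ⟨a, x, h⟩ := exists_upMat_mod_U0 (v.valuation F) g
  refine ⟨x, a, ?_⟩
  rw [dvert, MulAction.Quotient.smul_coe, smul_eq_mul, ← upMat_eq_unip_mul, eq_comm,
    QuotientGroup.eq, lev_of_not_mem hv]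
  exact h

/-- Too negative exponents do not occur. -/
lemma van_of_neg (hΦ : IsBasic Φ) (ω : FinPt F S) {v : Place F} (hv : v ∉ S) {a : Fˣ}
    (ha : WithZero.exp ((cnd v : ℤ) + 1) ≤ v.valuation F (a : F)) :
    Van Φ (ω.set v (dvert S v a)) := by
  obtain ⟨x, hx, hne⟩ := exists_psi_ne v
  refine fun t ht => hΦ.Wh_eq_zero_of_fix ?_ hne ht
  rw [FinPt.set_self, dvert, MulAction.Quotient.smul_coe, smul_eq_mul, upMat_mul, QuotientGroup.eq,
    lev_of_not_mem hv, upMat_inv, upMat_mul]
  refine le_withScalars _ (upMat_mem_intGL _ (by simp) ?_)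
  simp only [one_mul, Units.val_one, mul_zero, zero_add]
  rw [Units.val_inv_eq_inv_val, neg_mul, Valuation.map_neg, map_mul, map_inv₀,
    inv_mul_le_one₀ (zero_lt_iff.2 ((v.valuation F).ne_zero_iff.2 a.ne_zero))]
  exact hx.trans ha

/-- The neighbours of a diagonal vertex. -/
lemma nbr_cases {v : Place F} {a a' : Fˣ} {x : F}
    (h : vd (dvert S v a) (upMat (1 : Fˣ) x • dvert S v a') = 1) :
    v.valuation F (a' : F) = v.valuation F (a : F) * WithZero.exp 1 ∨
      (v.valuation F (a' : F) = v.valuation F (a : F) * WithZero.exp (-1) ∧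
        v.valuation F x ≤ v.valuation F (a : F)) := by
  rw [dvert, dvert, MulAction.Quotient.smul_coe, smul_eq_mul, ← upMat_eq_unip_mul, vd_mk,
    ← isStep_iff_lvl, upMat_inv, upMat_mul] at h
  -- A scalar multiple `c` of the relative matrix is integral with determinant of order one.
  obtain ⟨c, h1, h2⟩ := h
  have e00 := h1 0 0
  have e01 := h1 0 1
  have e11 := h1 1 1
  simp only [Units.val_mul, scal_coe, coe_upMat, Matrix.scalar_apply,
    Matrix.diagonal_mul] at e00 e01 e11
  simp only [Matrix.of_apply, Matrix.cons_val', Matrix.cons_val_zero, Matrix.cons_val_one,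
    Matrix.cons_val_fin_one, mul_one, mul_zero, add_zero] at e00 e01 e11
  simp only [Units.val_mul, scal_coe, coe_upMat, Matrix.det_mul, Matrix.scalar_apply,
    Matrix.det_diagonal, Fin.prod_univ_two, Matrix.det_fin_two_of, mul_one, mul_zero,
      sub_zero] at h2
  rw [Units.val_inv_eq_inv_val, map_mul, map_mul, map_mul, map_inv₀] at h2
  rw [Units.val_inv_eq_inv_val, map_mul, map_mul, map_inv₀] at e00
  rw [Units.val_inv_eq_inv_val, map_mul, map_mul, map_inv₀] at e01
  have ha0 : v.valuation F (a : F) ≠ 0 := (v.valuation F).ne_zero_iff.2 a.ne_zero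
  have ha0' : v.valuation F (a' : F) ≠ 0 := (v.valuation F).ne_zero_iff.2 a'.ne_zero
  have hc0 : v.valuation F (c : F) ≠ 0 := (v.valuation F).ne_zero_iff.2 c.ne_zero
  obtain ⟨i, hi⟩ : ∃ i : ℤ, v.valuation F (c : F) = WithZero.exp i :=
    ⟨_, (WithZero.exp_log hc0).symm⟩
  obtain ⟨j, hj⟩ : ∃ j : ℤ, v.valuation F (a : F) = WithZero.exp j :=
    ⟨_, (WithZero.exp_log ha0).symm⟩
  obtain ⟨k, hk⟩ : ∃ k : ℤ, v.valuation F (a' : F) = WithZero.exp k :=
    ⟨_, (WithZero.exp_log ha0').symm⟩
  rw [hi, hj, hk] at h2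
  rw [hi, hj, hk] at e00
  rw [hi] at e11
  simp only [← WithZero.exp_neg, ← WithZero.exp_add, WithZero.exp_inj] at h2
  simp only [← WithZero.exp_neg, ← WithZero.exp_add, ← WithZero.exp_zero,
    WithZero.exp_le_exp] at e00
  rw [← WithZero.exp_zero, WithZero.exp_le_exp] at e11
  rw [hj, hk]
  -- So the scalar has order `0` or `1`, one case each.
  rcases (show i = 0 ∨ i = -1 by omega) with rfl | rfl
  · refine Or.inr ⟨?_, ?_⟩
    · rw [← WithZero.exp_add, WithZero.exp_inj]; omega
    · rw [hi, WithZero.exp_zero, one_mul, inv_mul_le_one₀ (zero_lt_iff.2 ha0)] at e01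
      rw [← hj]; exact e01
  · refine Or.inl ?_
    rw [← WithZero.exp_add, WithZero.exp_inj]; omega

/-- **Hecke recursion**: the standard vertex determines all. -/
theorem van_of_hecke (hΦ : IsBasic Φ) {v : Place F} (hv : v ∉ S) {mu : ℂ}
    (hh : ∀ p, heckeT v Φ p = mu * Φ p) (ω : FinPt F S) (hP : Van Φ (ω.set v (stdP S v)))
    (y : Vert S v) : Van Φ (ω.set v y) := by
  suffices h : ∀ (k : ℕ) (a : Fˣ), WithZero.exp ((cnd v : ℤ) + 1 - (k : ℤ)) ≤
      v.valuation F (a : F) →
      Van Φ (ω.set v (dvert S v a)) by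
    obtain ⟨x, a, rfl⟩ := exists_dvert hv y
    refine van_set_translate hΦ x ?_
    have ha0 : v.valuation F (a : F) ≠ 0 := (v.valuation F).ne_zero_iff.2 a.ne_zero
    refine h (((cnd v : ℤ) + 1 - WithZero.log (v.valuation F (a : F))).toNat) a ?_
    conv_rhs => rw [← WithZero.exp_log ha0]
    rw [WithZero.exp_le_exp]; omega
  intro k
  induction k using Nat.strong_induction_on with
  | _ k ih =>
    intro a ha
    rcases k with _ | k
    · exact van_of_neg hΦ ω hv (by simpa using ha)
    by_cases hlt : WithZero.exp ((cnd v : ℤ) + 1 - (k : ℤ)) ≤ v.valuation F (a : F)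
    · exact ih k (Nat.lt_succ_self k) a hlt
    have hak : v.valuation F (a : F) = WithZero.exp ((cnd v : ℤ) - (k : ℤ)) := by
      have ha0 : v.valuation F (a : F) ≠ 0 := (v.valuation F).ne_zero_iff.2 a.ne_zero
      rw [← WithZero.exp_log ha0] at ha hlt ⊢
      rw [WithZero.exp_le_exp] at ha hlt
      rw [WithZero.exp_inj]; push_cast at ha; omega
    rcases k with _ | k
    · rw [dvert_eq_of_val hv (a' := dlt v) (by rw [val_dlt, hak]; simp)]
      exact hP
    obtain ⟨u, hu⟩ := exists_pi v
    -- the vertex one step below `a`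
    have hbk : v.valuation F ((a * u⁻¹ : Fˣ) : F) = WithZero.exp ((cnd v : ℤ) - (k : ℤ)) := by
      rw [Units.val_mul, map_mul, hak, Units.val_inv_eq_inv_val, map_inv₀, hu, ← WithZero.exp_neg,
        ← WithZero.exp_add, WithZero.exp_inj]
      push_cast; ring
    set a₁ := a * u⁻¹ with ha₁
    intro t ht
    set y₁ := dvert S v a₁ with hy₁
    set row := (sphKer (S := S) hv Polynomial.X).row y₁ with hrow
    -- by the Hecke equation the neighbours of `a₁` sum to zero
    have hsum : ∑ y ∈ row, Wh Φ (ω.set v y) t = 0 := by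
      have e : (fun z => ∑ y ∈ row, slice Φ (ω.set v y) t z * chi (-z))
          = fun z => mu * (slice Φ (ω.set v y₁) t z * chi (-z)) := funext fun z => by
        have h1 := heckeT_eq_locAct hv Φ (ω.set v y₁, pnt z t)
        rw [hh, locAct, FinPt.set_self] at h1
        rw [← Finset.sum_mul, ← mul_assoc]
        congr 1
        simp only [slice]
        rw [h1]
        refine Finset.sum_congr rfl fun y hy => ?_
        rw [sphKer_apply, kern_X, if_pos ((mem_row_sphKer_X hv).1 hy), one_mul]
        congr 2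
        exact Subtype.ext (funext fun w => by
          rcases eq_or_ne w v with rfl | hw
          · simp
          · simp [FinPt.set_of_ne _ hw])
      have e2 := congrArg mean e
      rw [mean_sum row (g := fun y z => slice Φ (ω.set v y) t z * chi (-z))
        fun y _ => hΦ.isPer_Wh _ ht, mean_const_mul _ (hΦ.isPer_Wh _ ht)] at e2
      refine e2.trans ?_
      rw [← Wh, hy₁,
        ih (k + 1) (by omega) a₁ (by rw [hbk, WithZero.exp_le_exp]; push_cast; omega) t ht,
        mul_zero]
    set W := Wh Φ (ω.set v (dvert S v a)) t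
    set up := row.filter fun y => ∃ (x : F) (a' : Fˣ), y = upMat (1 : Fˣ) x • dvert S v a' ∧
      v.valuation F (a' : F) = v.valuation F (a₁ : F) * WithZero.exp (-1)
    -- those of the level of `a` all carry its value, the others vanish by induction
    have hval : ∀ y ∈ row, Wh Φ (ω.set v y) t = if y ∈ up then W else 0 := by
      intro y hy
      have hd := (mem_row_sphKer_X hv).1 hy
      split_ifs with hup
      · obtain ⟨x, a', rfl, ha'⟩ := (Finset.mem_filter.1 hup).2
        rcases nbr_cases hd with hc | ⟨-, hx⟩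
        · rw [ha'] at hc
          have := mul_left_cancel₀ ((v.valuation F).ne_zero_iff.2 a₁.ne_zero) hc
          rw [WithZero.exp_inj] at this; omega
        rw [(hΦ.Wh_set ω v x _ ht).1, psi_of_le_cnd (hx.trans (by
          rw [hbk, WithZero.exp_le_exp]; omega)), one_mul,
          dvert_eq_of_val hv (a' := a) (by
            rw [ha', hbk, hak, ← WithZero.exp_add, WithZero.exp_inj]; push_cast; ring)]
      · obtain ⟨x, a', rfl⟩ := exists_dvert hv y
        rcases nbr_cases hd with hc | ⟨hc, -⟩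
        · refine van_set_translate hΦ x (ih k (by omega) a' ?_) t ht
          rw [hc, hbk, ← WithZero.exp_add, WithZero.exp_le_exp]; omega
        · exact absurd (Finset.mem_filter.2 ⟨hy, x, a', rfl, hc⟩) hup
    rw [Finset.sum_congr rfl hval, ← Finset.sum_filter, Finset.filter_mem_eq_inter,
      Finset.sum_const, nsmul_eq_mul, mul_eq_zero, Nat.cast_eq_zero, Finset.card_eq_zero] at hsum
    refine hsum.resolve_left fun he => ?_
    have hmem : dvert S v a ∈ row ∩ up := by
      have hr : dvert S v a ∈ row := by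
        rw [hrow, mem_row_sphKer_X hv, hy₁, dvert, dvert, vd_mk, ← isStep_iff_lvl,
          upMat_inv, upMat_mul,
          show a₁⁻¹ * a = u by rw [ha₁]; simp [mul_comm]]
        refine ⟨1, fun i j => ?_, ?_⟩
        · rw [show scal (1 : Fˣ) = (1 : GL (Fin 2) F) by simp [scal], one_mul]
          have hu1 : v.valuation F (u : F) ≤ 1 := by
            rw [hu, ← WithZero.exp_zero, WithZero.exp_le_exp]; omega
          fin_cases i <;> fin_cases j <;> simp [hu1]
        · rw [show scal (1 : Fˣ) = (1 : GL (Fin 2) F) by simp [scal], one_mul]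
          simpa [Matrix.det_fin_two_of] using hu
      refine Finset.mem_inter.2 ⟨hr,
        Finset.mem_filter.2 ⟨hr, 0, a, by rw [upMat_one, one_smul], ?_⟩⟩
      rw [hbk, hak, ← WithZero.exp_add, WithZero.exp_inj]; push_cast; ring
    rw [he] at hmem
    exact Finset.notMem_empty _ hmem

/-! ### places of cuspidal type -/

omit [IsTotallyComplex F] in
-- headroom for the nested decidable `∀` instances of `decide`
set_option synthInstance.maxSize 256 in
/-- `e4` is invariant on the left under the quaternion subgroup of `SL₂(𝔽₃)`. -/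
lemma e4_left_klein : ∀ a b c d x y z w : ZMod 3, a * d - b * c = 1 →
    (a + d = 0 ∨ (b = 0 ∧ c = 0 ∧ a = d)) →
    e4 (a * x + b * z) (a * y + b * w) (c * x + d * z) (c * y + d * w) = e4 x y z w := by
  -- only the eight left factors satisfying the hypotheses are expanded
  intro a b c d x y z w h h'
  revert x y z w
  revert a b c d
  decide +kernel

omit [IsTotallyComplex F] in
/-- An invertible matrix over `𝔽₃` is upper triangular times a quaternion element. -/
lemma exists_borel_klein :
    ∀ a b c d : ZMod 3, a * d - b * c ≠ 0 → ∃ r s : ZMod 3, (s = 1 ∨ s = -1) ∧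
    (s * (a - r * c)) * d - (s * (b - r * d)) * c = 1 ∧
    (s * (a - r * c) + d = 0 ∨ (s * (b - r * d) = 0 ∧ c = 0 ∧ s * (a - r * c) = d)) := by
  decide +kernel

/-- The matrix `(s r; 0 1)` over `𝔽₃`. -/
noncomputable def bMat (s : (ZMod 3)ˣ) (r : ZMod 3) : GL (Fin 2) (ZMod 3) :=
  Matrix.GeneralLinearGroup.mkOfDetNeZero !![(s : ZMod 3), r; 0, 1]
    (by simp [Matrix.det_fin_two_of])

variable {v : Place F} (hv3 : pnorm v = 3) (hvS : v ∈ S)
include hv3 hvS

omit hvS in
/-- One reduces to one. -/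
lemma res3_coe_one (h : v.valuation F ((1 : Fˣ) : F) ≤ 1) :
    res3 hv3 ⟨((1 : Fˣ) : F), h⟩ = ((1 : (ZMod 3)ˣ) : ZMod 3) :=
  (congrArg (res3 hv3) (Subtype.ext Units.val_one)).trans (map_one _)

/-- Left multiplication by an integral upper triangular matrix. -/
lemma upMat_smul_cls (a u : Fˣ) (hu : v.valuation F (u : F) = 1) (r : (v.valuation F).integer)
    {s : (ZMod 3)ˣ} (hs : res3 hv3 ⟨(u : F), hu.le⟩ = s) (M : GL (Fin 2) (ZMod 3)) :
    cls (S := S) hv3 (upMat a 0) (bMat s (res3 hv3 r) * M)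
      = upMat (1 : Fˣ) ((a : F) * r) • cls hv3 (upMat (a * u) 0) M := by
  obtain ⟨m, hm⟩ : upMat u (r : F) ∈ intGL (v.valuation F) := upMat_mem_intGL _ hu r.2
  change incGL v m = _ at hm
  set l := Function.surjInv (red3_surjective hv3) M
  have hred : red3 hv3 (m * l) = bMat s (res3 hv3 r) * M := by
    rw [map_mul, Function.surjInv_eq (red3_surjective hv3)]
    congr 1
    refine Units.ext ?_
    rw [coe_red3_upMat hv3 hm (u' := ⟨(u : F), hu.le⟩) rfl, hs]
    rfl
  rw [← hred, ← cls_eq hv3 hvS (upMat a 0) 1 (m * l), cls, MulAction.Quotient.smul_coe, smul_eq_mul]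
  congr 1
  rw [show scal (1 : Fˣ) = (1 : GL (Fin 2) F) by simp [scal], one_mul, map_mul, hm, ← mul_assoc,
    ← mul_assoc, upMat_mul, upMat_mul]
  congr 2
  · simp
  · simp

/-- The values at the classes over `diag (a, 1)`. -/
noncomputable def clsVal (Φ : Pt F S → ℂ) (ω : FinPt F S) (t : InfinitePlace F → ℝ) (a : Fˣ)
    (M : GL (Fin 2) (ZMod 3)) : ℂ :=
  Wh Φ (ω.set v (cls hv3 (upMat a 0) M)) t

/-- Unipotent matrices act on the values by the local character. -/
lemma clsVal_unip (hΦ : IsBasic Φ) (ω : FinPt F S) {t : InfinitePlace F → ℝ} (ht : Pos t) (a : Fˣ)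
    (r : (v.valuation F).integer) (M : GL (Fin 2) (ZMod 3)) :
    clsVal hv3 Φ ω t a (bMat 1 (res3 hv3 r) * M)
      = psi v ((a : F) * r) * clsVal hv3 Φ ω t a M := by
  rw [clsVal, clsVal, upMat_smul_cls hv3 hvS a 1 (by simp) r (s := 1)
    (res3_coe_one hv3 _) M, mul_one, (hΦ.Wh_set ω v _ _ ht).1]

set_option maxRecDepth 2048 in -- headroom for elaboration over the group `GL (Fin 2) (ZMod 3)`
/-- The values at the classes over a vertex satisfy the equation of the cuspidal idempotent. -/
lemma clsVal_eq (hΦ : IsBasic Φ) (hc : IsCuspType v Φ) (ω : FinPt F S) {t : InfinitePlace F → ℝ}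
    (ht : Pos t) (a : Fˣ) (M : GL (Fin 2) (ZMod 3)) :
    clsVal hv3 Φ ω t a M = 2⁻¹ * ∑ N : GL (Fin 2) (ZMod 3),
      e3 ((M⁻¹ * N : GL (Fin 2) (ZMod 3)) : Matrix (Fin 2) (Fin 2) (ZMod 3)) *
        clsVal hv3 Φ ω t a N := by
  set g := upMat a (0 : F)
  set y := cls (S := S) hv3 g M with hy
  set e := eKer (S := S) hv3 hvS
  have h := (hΦ.Wh_combo (e.row y) (fun y' => e y y') (fun y' => ω.set v y') (ω.set v y)
      ht fun x => by
    have h2 := (isCuspType_iff_locAct hv3 hvS Φ).1 hc (ω.set v y, x)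
    rw [locAct, FinPt.set_self] at h2
    rw [← h2]
    refine Finset.sum_congr rfl fun y' _ => ?_
    congr 3
    exact Subtype.ext (funext fun w => by
      rcases eq_or_ne w v with rfl | hw
      · simp
      · simp [FinPt.set_of_ne _ hw])).1
  rw [clsVal, ← hy, h, sum_coset hv3 hvS g _ _ (fun y' hy' _ => ?_) fun y' _ hne => ?_]
  · congr 1
    refine Finset.sum_congr rfl fun N _ => ?_
    rw [hy, eKer_apply, eCusp_cls_cls hv3 hvS]
    rfl
  · have h1 := mem_U0_of_eKer_ne_zero hv3 (LKer.mem_row.1 hy')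
    have h2 := cls_mem (S := S) hv3 g M
    simpa [mul_assoc, hy] using (U0 _).mul_mem h2 h1
  · exact LKer.mem_row.2 (left_ne_zero_of_mul hne)

/-- At valuations within the conductor the values at the classes vanish. -/
lemma clsVal_zero_of_le (hΦ : IsBasic Φ) (hc : IsCuspType v Φ) (ω : FinPt F S)
    {t : InfinitePlace F → ℝ} (ht : Pos t) {a : Fˣ}
    (ha : v.valuation F (a : F) ≤ WithZero.exp (cnd v : ℤ)) (M : GL (Fin 2) (ZMod 3)) :
    clsVal hv3 Φ ω t a M = 0 := by
  set G := clsVal hv3 Φ ω t a with hG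
  choose lift hlift using ZMod.ringHom_surjective (res3 hv3)
  -- below the conductor unipotents leave the class values fixed
  have hinv : ∀ (r : ZMod 3) N, G (bMat 1 r * N) = G N := fun r N => by
    rw [← hlift r, hG, clsVal_unip hv3 hvS hΦ ω ht, psi_of_le_cnd ?_, one_mul]
    rw [map_mul]
    exact (mul_le_of_le_one_right' (lift r).2).trans ha
  have h3 : ∀ r : ZMod 3, G M = 2⁻¹ * ∑ N : GL (Fin 2) (ZMod 3),
      e3 ((M⁻¹ * (bMat 1 r * N) : GL (Fin 2) (ZMod 3)) : Matrix (Fin 2) (Fin 2) (ZMod 3)) * G N :=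
          fun r => by
    rw [hG, clsVal_eq hv3 hvS hΦ hc ω ht, ← Equiv.sum_comp (Equiv.mulLeft (bMat 1 r))]
    simp only [Equiv.coe_mulLeft, ← hG, hinv]
  -- averaging `e3` over unipotents gives zero
  have h4 : ∑ _r : ZMod 3, G M = 0 := by
    rw [Finset.sum_congr rfl fun r _ => h3 r, ← Finset.mul_sum, Finset.sum_comm]
    refine mul_eq_zero_of_right _ (Finset.sum_eq_zero fun N _ => ?_)
    rw [← Finset.sum_mul]
    refine mul_eq_zero_of_left ?_ _
    set B := N * M⁻¹
    have hB := (Matrix.GeneralLinearGroup.det B).ne_zero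
    rw [Matrix.GeneralLinearGroup.val_det_apply, Matrix.det_fin_two] at hB
    have key : ∀ r : ZMod 3,
        e3 ((M⁻¹ * (bMat 1 r * N) : GL (Fin 2) (ZMod 3)) : Matrix (Fin 2) (Fin 2) (ZMod 3))
          = e3 ((B : Matrix (Fin 2) (Fin 2) (ZMod 3)) * !![1, r; 0, 1]) := fun r => by
      rw [← mul_assoc, Units.val_mul, e3_mul_comm, ← Units.val_mul, ← mul_assoc, Units.val_mul]
      simp [bMat, B]
    rw [Finset.sum_congr rfl fun r _ => key r]
    simp only [e3, Matrix.mul_apply, Fin.sum_univ_two, Matrix.of_apply, Matrix.cons_val',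
      Matrix.cons_val_zero, Matrix.cons_val_one, Matrix.cons_val_fin_one, mul_one,
        mul_zero, add_zero]
    rw [← Finset.sum_div, ← Int.cast_sum, e4_unip _ _ _ _ hB]
    simp
  simpa [Finset.sum_const] using h4

/-- The two standard classes determine the critical valuation. -/
lemma clsVal_crit (hΦ : IsBasic Φ) (hc : IsCuspType v Φ) (ω : FinPt F S)
    {t : InfinitePlace F → ℝ} (ht : Pos t) (hQ : ∀ b, Van Φ (ω.set v (stdQ S v b)))
    (N : GL (Fin 2) (ZMod 3)) : clsVal hv3 Φ ω t (a0 v) N = 0 := by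
  have hd := (Matrix.GeneralLinearGroup.det N).ne_zero
  rw [Matrix.GeneralLinearGroup.val_det_apply, Matrix.det_fin_two] at hd
  obtain ⟨r, s, hs, hdet, hcond⟩ := exists_borel_klein _ _ _ _ hd
  have hs0 : s ≠ 0 := by rcases hs with rfl | rfl <;> decide
  set B := bMat (Units.mk0 s hs0) r
  set P := B⁻¹ * N with hP
  have hss : s * s = 1 := by rcases hs with rfl | rfl <;> decide
  have hPval : (P : Matrix (Fin 2) (Fin 2) (ZMod 3))
      = !![s * (N.1 0 0 - r * N.1 1 0), s * (N.1 0 1 - r * N.1 1 1); N.1 1 0, N.1 1 1] := by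
    have h2 : (B : Matrix (Fin 2) (Fin 2) (ZMod 3))
        * !![s * (N.1 0 0 - r * N.1 1 0), s * (N.1 0 1 - r * N.1 1 1); N.1 1 0, N.1 1 1] = N.1 := by
      ext i j
      fin_cases i <;> fin_cases j <;> simp [B, bMat, Matrix.mul_apply] <;>
        rw [← mul_assoc, hss] <;> ring
    conv_lhs => rw [hP, Units.val_mul, ← h2, ← Matrix.mul_assoc, Units.inv_mul, Matrix.one_mul]
  have hQinv : ∀ X : Matrix (Fin 2) (Fin 2) (ZMod 3),
      e3 (((P⁻¹ : GL (Fin 2) (ZMod 3)) : Matrix (Fin 2) (Fin 2) (ZMod 3)) * X) = e3 X := by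
    intro X
    rw [coe_inv_zmod3, hPval, Matrix.det_fin_two_of, hdet, one_smul, Matrix.adjugate_fin_two_of]
    simp only [e3, Matrix.mul_apply, Fin.sum_univ_two, Matrix.of_apply, Matrix.cons_val',
      Matrix.cons_val_zero, Matrix.cons_val_one, Matrix.cons_val_fin_one]
    rw [e4_left_klein _ _ _ _ _ _ _ _ (by linear_combination hdet)]
    rcases hcond with h | ⟨h1', h2', h3'⟩
    · exact Or.inl (by linear_combination h)
    · exact Or.inr ⟨by rw [h1', neg_zero], by rw [h2', neg_zero], h3'.symm⟩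
  have hBP : B * P = N := by rw [hP, mul_inv_cancel_left]
  rw [← hBP]
  have hstep : clsVal hv3 Φ ω t (a0 v) (B * P) = clsVal hv3 Φ ω t (a0 v) B := by
    rw [clsVal_eq hv3 hvS hΦ hc ω ht _ (B * P), clsVal_eq hv3 hvS hΦ hc ω ht _ B]
    refine congrArg ((2 : ℂ)⁻¹ * ·) (Finset.sum_congr rfl fun K _ => ?_)
    rw [mul_inv_rev, mul_assoc, Units.val_mul, hQinv]
  rw [hstep]
  choose lift hlift using ZMod.ringHom_surjective (res3 hv3)
  have hB : B = bMat 1 r * bMat (Units.mk0 s hs0) 0 := by
    refine Units.ext ?_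
    simp [B, bMat]
  rw [hB, ← hlift r, clsVal_unip hv3 hvS hΦ ω ht]
  refine mul_eq_zero_of_right _ ?_
  -- the classes of `diag (±1, 1)`
  have hone : ∀ w : Fˣ, ∀ hw : v.valuation F (w : F) = 1, res3 hv3 ⟨(w : F), hw.le⟩ = s →
      cls (S := S) hv3 (upMat (a0 v) 0) (bMat (Units.mk0 s hs0) 0) = dvert S v (a0 v * w) := by
    intro w hw hws
    have h2 := upMat_smul_cls hv3 hvS (a0 v) w hw 0 (s := Units.mk0 s hs0) hws 1
    rw [mul_one, ZeroMemClass.coe_zero, mul_zero, upMat_one, one_smul, map_zero] at h2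
    rw [h2]
    have h3 := cls_eq (S := S) hv3 hvS (upMat (a0 v * w) 0) 1 1
    rw [map_one, map_one, show scal (1 : Fˣ) =
      (1 : GL (Fin 2) F) by simp [scal], one_mul, mul_one] at h3
    rw [← h3, dvert]
  rcases hs with rfl | rfl
  · change Wh Φ _ t = 0
    rw [hone 1 (by simp) (res3_coe_one hv3 _), mul_one]
    exact hQ true t ht
  · change Wh Φ _ t = 0
    rw [hone (-1) (by simp) (by
      rw [show (⟨((-1 : Fˣ) : F), (by simp : v.valuation F ((-1 : Fˣ) : F) ≤ 1)⟩ :
        (v.valuation F).integer)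
        = -1 from Subtype.ext (by simp), map_neg, map_one]), mul_neg, mul_one]
    exact hQ false t ht

/-- **At a place of cuspidal type two values determine all.** -/
theorem van_of_cusp (hΦ : IsBasic Φ) (hc : IsCuspType v Φ) (ω : FinPt F S)
    (hQ : ∀ b, Van Φ (ω.set v (stdQ S v b))) (y : Vert S v) : Van Φ (ω.set v y) := by
  obtain ⟨g, rfl⟩ := QuotientGroup.mk_surjective y
  obtain ⟨a, x, hax⟩ := exists_upMat_mod_U0 (v.valuation F) g
  obtain ⟨M, hM⟩ : ∃ M, cls (S := S) hv3 (upMat a 0) M =
      (upMat (1 : Fˣ) x)⁻¹ • ((g : GL (Fin 2) F) : Vert S v) := by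
    refine exists_cls_eq hv3 hvS _ ?_
    rw [MulAction.Quotient.smul_coe, smul_eq_mul]
    obtain ⟨k, hk⟩ := QuotientGroup.mk_out_eq_mul (lev S v) ((upMat (1 : Fˣ) x)⁻¹ * g)
    rw [hk, ← mul_assoc, ← mul_assoc, ← mul_inv_rev, ← upMat_eq_unip_mul]
    exact (U0 _).mul_mem hax (lev_le_U0 S v k.2)
  rw [show ((g : GL (Fin 2) F) : Vert S v) = upMat (1 : Fˣ) x • cls (S := S) hv3 (upMat a 0) M by
    rw [hM, smul_inv_smul]]
  refine van_set_translate hΦ x fun t ht => ?_
  have ha0 : v.valuation F (a : F) ≠ 0 := (v.valuation F).ne_zero_iff.2 a.ne_zero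
  rcases le_or_gt (v.valuation F (a : F)) (WithZero.exp (cnd v : ℤ)) with hle | hgt
  · exact clsVal_zero_of_le hv3 hvS hΦ hc ω ht hle M
  have hge : WithZero.exp ((cnd v : ℤ) + 1) ≤ v.valuation F (a : F) := by
    rw [← WithZero.exp_log ha0, WithZero.exp_lt_exp] at hgt
    rw [← WithZero.exp_log ha0, WithZero.exp_le_exp]; omega
  rcases eq_or_lt_of_le hge with heq | hlt
  swap
  · -- too negative
    obtain ⟨z, hz, hne⟩ := exists_psi_ne v
    refine hΦ.Wh_eq_zero_of_fix ?_ hne ht
    rw [FinPt.set_self]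
    have hr : v.valuation F (((a⁻¹ : Fˣ) : F) * z) < 1 := by
      rw [map_mul, Units.val_inv_eq_inv_val, map_inv₀, inv_mul_lt_one₀ (zero_lt_iff.2 ha0)]
      exact lt_of_le_of_lt hz hlt
    have h1 := upMat_smul_cls hv3 hvS a 1 (by simp) ⟨_, hr.le⟩ (s := 1)
      (res3_coe_one hv3 _) M
    rw [(res3_eq_zero hv3 _).2 hr, mul_one,
      show bMat 1 0 = 1 from Units.ext (by simp [bMat, Matrix.one_fin_two]), one_mul] at h1
    simp only [← mul_assoc, Units.mul_inv, one_mul] at h1
    exact h1.symm
  -- the critical valuation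
  set u : Fˣ := (a0 v)⁻¹ * a with hudef
  have hu : v.valuation F (u : F) = 1 := by
    rw [hudef, Units.val_mul, map_mul, Units.val_inv_eq_inv_val, map_inv₀, val_a0, ← heq,
      inv_mul_cancel₀ WithZero.exp_ne_zero]
  have hau : a0 v * u = a := by rw [hudef, mul_inv_cancel_left]
  have hne : res3 hv3 ⟨(u : F), hu.le⟩ ≠ 0 := fun h => by
    rw [res3_eq_zero hv3, hu] at h; exact lt_irrefl _ h
  have h1 := upMat_smul_cls hv3 hvS (a0 v) u hu 0 (s := Units.mk0 _ hne) rfl M
  rw [hau, ZeroMemClass.coe_zero, mul_zero, upMat_one, one_smul, map_zero] at h1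
  change Wh Φ (ω.set v (cls hv3 (upMat a 0) M)) t = 0
  rw [← h1]
  -- reduce to the two standard classes
  suffices hG : ∀ N, clsVal hv3 Φ ω t (a0 v) N = 0 from hG _
  exact fun N => clsVal_crit hv3 hvS hΦ hc ω ht hQ N

end Fermat.LT.Mult
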