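import Fermat.Agent.LT.Mult.AtPlace

/-!
# Multiplicity: removing an exceptional place

A finite combination of slices whose coefficients live at positive exponents at `w` takes the same
value at a vertex and at its grandparent, hence is invariant under all translations at `w`, hence
has all nontrivial coefficients zero.
-/

set_option autoImplicit false
set_option linter.unusedSectionVars false
open NumberField MeasureTheory Filter
open scoped Classical

namespace Fermat.LT.Mult

variable {F : Type*} [Field F] [NumberField F] {S : Set (Place F)}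

/-- The matrix `[[0, 1], [1, 0]]`. -/
noncomputable def swGL : GL (Fin 2) F :=
  Matrix.GeneralLinearGroup.mkOfDetNeZero !![0, 1; 1, 0] (by simp [Matrix.det_fin_two_of])

/-- The matrix `[[1, 0], [c, 1]]`. -/
noncomputable def lowMat (c : F) : GL (Fin 2) F :=
  Matrix.GeneralLinearGroup.mkOfDetNeZero !![1, 0; c, 1] (by simp [Matrix.det_fin_two_of])

/-- Lower unipotent matrices are swapped upper ones. -/
lemma lowMat_eq (c : F) : lowMat c = swGL * upMat 1 c * swGL := by
  refine Units.ext ?_
  simp [lowMat, swGL]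

/-- The swap is an involution. -/
lemma swGL_mul_self : (swGL : GL (Fin 2) F) * swGL = 1 := by
  refine Units.ext ?_
  simp [swGL, Matrix.one_fin_two]

variable [Finite S] [IsTotallyComplex F]

/-- A diagonal matrix moves diagonal vertices by multiplication. -/
lemma smul_dvert {v : Place F} (a b : Fˣ) :
    upMat a (0 : F) • dvert S v b = dvert S v (a * b) := by
  rw [dvert, dvert, MulAction.Quotient.smul_coe, smul_eq_mul, upMat_mul]
  simp

/-- A diagonal matrix scales translations. -/
lemma smul_translate (a : Fˣ) (x : F) {v : Place F} (y : Vert S v) :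
    upMat a (0 : F) • (upMat (1 : Fˣ) x • y) = upMat (1 : Fˣ)
      ((a : F) * x) • (upMat a (0 : F) • y) := by
  rw [smul_smul, smul_smul, upMat_mul, upMat_mul]
  simp

/-- Approximation fixing a finite family away from one place. -/
lemma exists_small {ι : Type*} (s : Finset ι) (ν : ι → FinPt F S) (w : Place F) (x : F) (m : ℕ) :
    ∃ b : F, w.valuation F (b - x) ≤ WithZero.exp (-(m : ℤ)) ∧
      ∀ i ∈ s, ∀ u, u ≠ w → upMat (1 : Fˣ) b • (ν i).1 u = (ν i).1 u := by
  choose E n hn0 hn using fun i => exists_fix_exp (ν i)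
  set U := insert w (s.biUnion E)
  obtain ⟨N, hN⟩ := Finset.bddAbove (U.image fun v => s.sup fun i => n i v)
  obtain ⟨b, hb1, hb2⟩ := exists_approx U (fun v => if v = w then x else 0) (N + m)
  refine ⟨b, ?_, fun i hi u hu => hn i u b ?_⟩
  · have h := hb1 w (Finset.mem_insert_self _ _)
    rw [if_pos rfl] at h
    exact h.trans (WithZero.exp_le_exp.2 (by push_cast; omega))
  · by_cases huU : u ∈ U
    · have h := hb1 u huU
      rw [if_neg hu, sub_zero] at h
      refine h.trans (WithZero.exp_le_exp.2 ?_)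
      have h1 : n i u ≤ s.sup fun i => n i u := Finset.le_sup (f := fun i => n i u) hi
      have h2 : (s.sup fun i => n i u) ≤ N :=
        hN (Finset.mem_coe.2 (Finset.mem_image_of_mem (fun v => s.sup fun i => n i v) huU))
      push_cast; omega
    · rw [hn0 i u fun h => huU (Finset.mem_insert_of_mem (Finset.mem_biUnion.2 ⟨i, hi, h⟩))]
      simpa using hb2 u huU

/-- A lower unipotent near a given one at `w` fixes finitely many points away from `w`. -/
lemma exists_small_low {ι : Type*} (s : Finset ι) (ν : ι → FinPt F S) (w : Place F)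
    (x : F) (m : ℕ) :
    ∃ c : F, w.valuation F (c - x) ≤ WithZero.exp (-(m : ℤ)) ∧
      ∀ i ∈ s, ∀ u, u ≠ w → lowMat c • (ν i).1 u = (ν i).1 u := by
  obtain ⟨c, h1, h2⟩ := exists_small s (fun i => (swGL : GL (Fin 2) F) • ν i) w x m
  refine ⟨c, h1, fun i hi u hu => ?_⟩
  have h := h2 i hi u hu
  rw [FinPt.smul_apply] at h
  rw [lowMat_eq, mul_smul, mul_smul, h, ← mul_smul, swGL_mul_self, one_smul]

/-- A finite combination of values, as a function of the vertex at `w`. -/
noncomputable def combo {ι : Type*} (Φ : Pt F S → ℂ) (s : Finset ι) (c : ι → ℂ)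
    (ν : ι → FinPt F S) (w : Place F) (y : Vert S w) (X : InfinitePlace F → H3) : ℂ :=
  ∑ i ∈ s, c i * Φ ((ν i).set w y, X)

variable {Φ : Pt F S → ℂ} {ι : Type*} {s : Finset ι} {c : ι → ℂ}
  {ν : ι → FinPt F S} {w : Place F}

/-- Moving a combination by a matrix fixing the family away from `w`. -/
lemma combo_smul (hΦ : IsBasic Φ) (g : GL (Fin 2) F)
    (hg : ∀ i ∈ s, ∀ u, u ≠ w → g • (ν i).1 u = (ν i).1 u) (y : Vert S w)
    (X : InfinitePlace F → H3) :
    combo Φ s c ν w (g • y) (fun u => atInf u g • X u) = combo Φ s c ν w y X := by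
  refine Finset.sum_congr rfl fun i hi => ?_
  rw [← isInvariant_iff.1 hΦ.invariant g ((ν i).set w y, X)]
  congr 2
  refine Prod.ext (Subtype.ext (funext fun u => ?_)) rfl
  rw [Pt.smul_fst, FinPt.smul_apply]
  rcases eq_or_ne u w with rfl | hu
  · simp
  · simp [FinPt.set_of_ne _ hu, hg i hi u hu]

/-- The coefficient of a combination. -/
noncomputable def comboW (Φ : Pt F S → ℂ) (s : Finset ι) (c : ι → ℂ) (ν : ι → FinPt F S)
    (w : Place F) (a : Fˣ) (y : Vert S w) (t : InfinitePlace F → ℝ) : ℂ :=
  ∑ i ∈ s, c i * Wh Φ (upMat a (0 : F) • (ν i).set w y) (sc a t)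

/-- A translation at `w` multiplies the coefficient by the local character. -/
lemma comboW_translate (hΦ : IsBasic Φ) (a : Fˣ) (x : F) (y : Vert S w) {t : InfinitePlace F → ℝ}
    (ht : Pos t) : comboW Φ s c ν w a (upMat (1 : Fˣ) x • y) t
      = psi w ((a : F) * x) * comboW Φ s c ν w a y t := by
  rw [comboW, comboW, Finset.mul_sum]
  refine Finset.sum_congr rfl fun i _ => ?_
  rw [FinPt.smul_set, FinPt.smul_set, smul_translate, (hΦ.Wh_set _ w _ _ (pos_sc a ht)).1]
  ring

/-- The mean of a combination against a character is its coefficient. -/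
lemma mean_combo (hΦ : IsBasic Φ) (a : Fˣ) (y : Vert S w) {t : InfinitePlace F → ℝ} (ht : Pos t) :
    mean (fun z => combo Φ s c ν w y (pnt z t) * chi (-(emb (a : F) * z)))
      = comboW Φ s c ν w a y t := by
  rw [show (fun z => combo Φ s c ν w y (pnt z t) * chi (-(emb (a : F) * z)))
      = fun z => ∑ i ∈ s, c i * (slice Φ ((ν i).set w y) t z * chi (-(emb (a : F) * z))) from
    funext fun z => by
      rw [combo, Finset.sum_mul]; exact Finset.sum_congr rfl fun i _ => mul_assoc _ _ _,
    mean_sum s (g := fun i z => c i * (slice Φ ((ν i).set w y) t z * chi (-(emb (a : F) * z))))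
      fun i _ => (IsPer.const (c i)).mul ((hΦ.isPer_slice _ ht).mul (isPer_chi_mul _))]
  refine Finset.sum_congr rfl fun i _ => ?_
  rw [mean_const_mul _ ((hΦ.isPer_slice _ ht).mul (isPer_chi_mul _)), hΦ.mean_coef a _ ht]

/-- Equality from equality of coefficients. -/
lemma combo_eq_of_coef (hΦ : IsBasic Φ) (hcst : ∀ μ t, Pos t → cst Φ μ t = 0) (y y' : Vert S w)
    (h : ∀ (a : Fˣ) t, Pos t → comboW Φ s c ν w a y t = comboW Φ s c ν w a y' t)
    (X : InfinitePlace F → H3) : combo Φ s c ν w y X = combo Φ s c ν w y' X := by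
  rw [← pnt_coord X]
  set t := fun u => (H3.coord (X u)).2
  have ht : Pos t := fun u => H3.coord_pos _
  have h0 := hΦ.combo_eq_zero (s ×ˢ (Finset.univ : Finset Bool)) (fun p => if p.2 then
    c p.1 else -c p.1) (fun p => (ν p.1).set w (if p.2 then y else y')) ht
    (Finset.sum_eq_zero fun p _ => by rw [hcst _ _ ht, mul_zero]) (fun a => ?_)
    (fun u => (H3.coord (X u)).1)
  · rw [← sub_eq_zero, ← h0, Finset.sum_product, combo, combo, ← Finset.sum_sub_distrib]
    refine Finset.sum_congr rfl fun i _ => ?_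
    simp [slice, t, sub_eq_add_neg]
  · have h1 := h a t ht
    rw [comboW, comboW, ← sub_eq_zero, ← Finset.sum_sub_distrib] at h1
    rw [Finset.sum_product, ← h1]
    refine Finset.sum_congr rfl fun i _ => ?_
    simp [sub_eq_add_neg]

/-- A combination invariant under the translations one step beyond each vertex takes the same
value at a vertex and at its grandparent. -/
theorem combo_grandparent (hΦ : IsBasic Φ) (hw : w ∉ S) {q : Fˣ}
    (hq : w.valuation F (q : F) = WithZero.exp (-1 : ℤ))
    (h1 : ∀ (b : Fˣ) (x : F), w.valuation F x ≤ w.valuation F (b : F) * WithZero.exp 1 →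
      ∀ X, combo Φ s c ν w (upMat (1 : Fˣ) x • dvert S w b) X = combo Φ s c ν w (dvert S w b) X)
    (b : Fˣ) (X : InfinitePlace F → H3) :
    combo Φ s c ν w (dvert S w (b * (q⁻¹ * q⁻¹))) X = combo Φ s c ν w (dvert S w b) X := by
  have hq0 : (q : F) ≠ 0 := q.ne_zero
  have hb0 : (b : F) ≠ 0 := b.ne_zero
  obtain ⟨j, hj⟩ : ∃ j : ℤ, w.valuation F (b : F) = WithZero.exp j :=
    ⟨_, (WithZero.exp_log ((w.valuation F).ne_zero_iff.2 hb0)).symm⟩
  set x₀ : F := -((q : F) / (b : F)) with hx₀
  obtain ⟨e, he, hfix⟩ := exists_small_low s ν w x₀ (j + 2).toNat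
  have hd : w.valuation F (e - x₀) ≤ WithZero.exp (-j - 2) :=
    he.trans (WithZero.exp_le_exp.2 (by omega))
  -- `e b / q ≡ -1`
  set ε : F := (e - x₀) * (b : F) / ((q : F) * (q : F)) with hε
  have hεle : w.valuation F ε ≤ 1 := by
    rw [hε, map_div₀, map_mul, map_mul, hq, hj, ← WithZero.exp_add, div_eq_mul_inv,
      ← WithZero.exp_neg]
    calc _ ≤ WithZero.exp (-j - 2) * WithZero.exp j * WithZero.exp (-((-1) + (-1) : ℤ)) := by gcongr
      _ = 1 := by rw [← WithZero.exp_add, ← WithZero.exp_add, ← WithZero.exp_zero]; congr 1; ring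
  have heb : e * (b : F) = (q : F) * ((q : F) * ε - 1) := by
    rw [hε, hx₀]; field_simp; ring
  have hq1 : w.valuation F (q : F) ≤ 1 := by
    rw [hq, ← WithZero.exp_zero, WithZero.exp_le_exp]; omega
  have hz : w.valuation F ((q : F) * ε - 1) = 1 := by
    rw [sub_eq_add_neg, (w.valuation F).map_add_eq_of_lt_right] <;> rw [Valuation.map_neg, map_one]
    rw [map_mul, hq]
    refine lt_of_le_of_lt (mul_le_of_le_one_right' hεle) ?_
    rw [← WithZero.exp_zero, WithZero.exp_lt_exp]; omega
  -- `lowMat e` fixes the vertex and carries a translate of it to the grandparent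
  have hy : lowMat e • dvert S w b = dvert S w b := by
    rw [dvert, MulAction.Quotient.smul_coe, smul_eq_mul, QuotientGroup.eq, lev_of_not_mem hw]
    have he1 : w.valuation F (e * (b : F)) ≤ 1 := by
      rw [heb, map_mul, hz, mul_one]; exact hq1
    have em : (lowMat e * upMat b (0 : F))⁻¹ * upMat b 0 = lowMat (-(e * (b : F))) := by
      rw [mul_inv_rev, mul_assoc, inv_mul_eq_iff_eq_mul, inv_mul_eq_iff_eq_mul]
      refine Units.ext ?_
      simp [lowMat]
    rw [em]
    refine le_withScalars _ (mem_intGL_of_le (fun i j => ?_) fun i j => ?_)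
    · fin_cases i <;> fin_cases j <;> simp [lowMat, Valuation.map_neg, -map_mul, he1]
    · have einv : (lowMat (-(e * (b : F))))⁻¹ = lowMat (e * (b : F)) :=
          inv_eq_of_mul_eq_one_right (by
        refine Units.ext ?_
        simp [lowMat, Matrix.one_fin_two])
      rw [einv]
      fin_cases i <;> fin_cases j <;> simp [lowMat, -map_mul, he1]
  have hs : lowMat e • (upMat (1 : Fˣ) ((b : F) / (q : F)) • dvert S w b)
      = dvert S w (b * (q⁻¹ * q⁻¹)) := by
    rw [dvert, dvert, MulAction.Quotient.smul_coe, MulAction.Quotient.smul_coe,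
      smul_eq_mul, smul_eq_mul, eq_comm, QuotientGroup.eq, lev_of_not_mem hw]
    refine ⟨q⁻¹, ?_⟩
    set K := scal q⁻¹ *
      ((upMat (b * (q⁻¹ * q⁻¹)) (0 : F))⁻¹ * (lowMat e * (upMat 1 ((b : F) / (q : F)) * upMat b 0)))
    have hK : (K : Matrix (Fin 2) (Fin 2) F) = !![(q : F), 1; (q : F) * ε - 1, ε] := by
      simp only [K, Units.val_mul, scal_coe, upMat_inv, coe_upMat, lowMat,
        Matrix.GeneralLinearGroup.mkOfDetNeZero]
      ext i j
      fin_cases i <;> fin_cases j <;>
        simp [Matrix.mul_apply, Fin.sum_univ_two] <;> field_simp <;> linear_combination heb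
    have hdet : (K : Matrix (Fin 2) (Fin 2) F).det = 1 := by
      rw [hK, Matrix.det_fin_two_of]; ring
    refine mem_intGL_of_le (fun i j => ?_) fun i j => ?_
    · rw [hK]; fin_cases i <;> fin_cases j <;> simp [hq1, hεle, hz.le]
    · rw [Matrix.coe_units_inv, Matrix.inv_def, hdet, Ring.inverse_one, one_smul, hK,
        Matrix.adjugate_fin_two_of]
      have hz' : w.valuation F (1 - (q : F) * ε) = 1 := by rw [Valuation.map_sub_swap, hz]
      fin_cases i <;> fin_cases j <;> simp [hq1, hεle, hz'.le, Valuation.map_neg]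
  have hxle : w.valuation F ((b : F) / (q : F)) ≤ w.valuation F (b : F) * WithZero.exp 1 := by
    rw [map_div₀, hq, div_eq_mul_inv, ← WithZero.exp_neg, neg_neg]
  have hX : (fun u => atInf u (lowMat e) • ((atInf u (lowMat e))⁻¹ • X u)) = X :=
    funext fun u => smul_inv_smul _ _
  set Y := fun u => (atInf u (lowMat e))⁻¹ • X u
  calc combo Φ s c ν w (dvert S w (b * (q⁻¹ * q⁻¹))) X
      = combo Φ s c ν w (lowMat e • (upMat (1 : Fˣ) ((b : F) / (q : F)) • dvert S w b))
          (fun u => atInf u (lowMat e) • Y u) := by rw [hs, hX]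
    _ = combo Φ s c ν w (upMat (1 : Fˣ) ((b : F) / (q : F)) • dvert S w b) Y :=
          combo_smul hΦ _ hfix _ _
    _ = combo Φ s c ν w (dvert S w b) Y := h1 b _ hxle _
    _ = combo Φ s c ν w (lowMat e • dvert S w b) (fun u => atInf u (lowMat e) • Y u) :=
          (combo_smul hΦ _ hfix _ _).symm
    _ = combo Φ s c ν w (dvert S w b) X := by rw [hy, hX]

/-- **A combination supported at positive exponents at `w` has no coefficient.** -/
theorem comboW_eq_zero (hΦ : IsBasic Φ) (hcst : ∀ μ t, Pos t → cst Φ μ t = 0) (hw : w ∉ S)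
    (hsupp : ∀ (a b : Fˣ) t, Pos t →
      WithZero.exp (cnd w : ℤ) ≤ w.valuation F (a : F) * w.valuation F (b : F) →
      comboW Φ s c ν w a (dvert S w b) t = 0)
    (a b : Fˣ) {t : InfinitePlace F → ℝ} (ht : Pos t) : comboW Φ s c ν w a (dvert S w b) t = 0 := by
  obtain ⟨q, hq⟩ := exists_pi w
  -- translations one step beyond a vertex do not change the combination
  have h1 : ∀ (b : Fˣ) (x : F), w.valuation F x ≤ w.valuation F (b : F) * WithZero.exp 1 →
      ∀ X, combo Φ s c ν w (upMat (1 : Fˣ) x • dvert S w b) X =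
          combo Φ s c ν w (dvert S w b) X := by
    intro b x hx
    refine combo_eq_of_coef hΦ hcst _ _ fun a t ht => ?_
    rw [comboW_translate hΦ a x _ ht]
    by_cases h : WithZero.exp (cnd w : ℤ) ≤ w.valuation F (a : F) * w.valuation F (b : F)
    · rw [hsupp a b t ht h, mul_zero]
    · rw [psi_of_le_cnd, one_mul]
      obtain ⟨i, hi⟩ : ∃ i : ℤ, w.valuation F (a : F) = WithZero.exp i :=
        ⟨_, (WithZero.exp_log ((w.valuation F).ne_zero_iff.2 a.ne_zero)).symm⟩
      obtain ⟨j, hj⟩ : ∃ j : ℤ, w.valuation F (b : F) = WithZero.exp j :=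
        ⟨_, (WithZero.exp_log ((w.valuation F).ne_zero_iff.2 b.ne_zero)).symm⟩
      rw [hi, hj, ← WithZero.exp_add, WithZero.exp_le_exp] at h
      rw [map_mul, hi]
      refine (mul_le_mul_right hx _).trans ?_
      rw [hj, ← WithZero.exp_add, ← WithZero.exp_add, WithZero.exp_le_exp]
      omega
  have hgp : ∀ (b : Fˣ) (x : F) X, combo Φ s c ν w (upMat (1 : Fˣ) x • dvert S w b) X
      = combo Φ s c ν w (upMat (1 : Fˣ) x • dvert S w (b * (q⁻¹ * q⁻¹))) X := by
    intro b x X
    obtain ⟨m₁, hm₁⟩ := exists_unip_fix w (dvert S w b)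
    obtain ⟨m₂, hm₂⟩ := exists_unip_fix w (dvert S w (b * (q⁻¹ * q⁻¹)))
    obtain ⟨x', hx', hfix⟩ := exists_small s ν w x (max m₁ m₂)
    have hmov : ∀ (y : Vert S w) (m : ℕ), m ≤ max m₁ m₂ →
        (∀ z : F, w.valuation F z ≤ WithZero.exp (-(m : ℤ)) → upMat (1 : Fˣ) z • y = y) →
        upMat (1 : Fˣ) x • y = upMat (1 : Fˣ) x' • y := fun y m hm hy => by
      rw [show x' = x + (x' - x) by ring, upMat_add, mul_smul,
        hy _ (hx'.trans (WithZero.exp_le_exp.2 (by omega)))]
    rw [hmov _ m₁ (le_max_left _ _) hm₁, hmov _ m₂ (le_max_right _ _) hm₂]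
    have hX : (fun u => atInf u (upMat (1 : Fˣ) x') • ((atInf u (upMat (1 : Fˣ) x'))⁻¹ • X u)) =
        X :=
      funext fun u => smul_inv_smul _ _
    rw [← hX, combo_smul hΦ _ hfix, combo_smul hΦ _ hfix, combo_grandparent hΦ hw hq h1]
  -- climbing by grandparents, no translation changes it
  have hall : ∀ (k : ℕ) (b : Fˣ) (x : F), w.valuation F x ≤ w.valuation F (b : F) *
      WithZero.exp (k : ℤ) →
      ∀ X, combo Φ s c ν w (upMat (1 : Fˣ) x • dvert S w b) X =
          combo Φ s c ν w (dvert S w b) X := by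
    intro k
    induction k using Nat.strong_induction_on with
    | _ k ih =>
      intro b x hx X
      rcases k with _ | _ | k
      · exact h1 b x (hx.trans (mul_le_mul_right (WithZero.exp_le_exp.2 (by simp)) _)) X
      · exact h1 b x hx X
      · have hgp0 := hgp b 0 X
        rw [upMat_one, one_smul, one_smul] at hgp0
        rw [hgp b x X, ih k (by omega) (b * (q⁻¹ * q⁻¹)) x ?_ X, ← hgp0]
        refine hx.trans (le_of_eq ?_)
        simp only [Units.val_mul, Units.val_inv_eq_inv_val, map_mul, map_inv₀, hq,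
          ← WithZero.exp_neg]
        rw [mul_assoc, ← WithZero.exp_add, ← WithZero.exp_add]
        congr 2
        push_cast
        ring
  -- yet one of them multiplies the coefficient by a character value other than one
  obtain ⟨z, hz, hne⟩ := exists_psi_ne w
  set x := ((a⁻¹ : Fˣ) : F) * z
  have hax : (a : F) * x = z := by simp [x]
  obtain ⟨k, hk⟩ : ∃ k : ℕ, w.valuation F x ≤ w.valuation F (b : F) * WithZero.exp (k : ℤ) := by
    have hb0 : w.valuation F (b : F) ≠ 0 := (w.valuation F).ne_zero_iff.2 b.ne_zero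
    refine ⟨(WithZero.log (w.valuation F x) - WithZero.log (w.valuation F (b : F))).toNat, ?_⟩
    rcases eq_or_ne (w.valuation F x) 0 with h0 | h0
    · rw [h0]; exact zero_le
    · obtain ⟨i, hi⟩ : ∃ i : ℤ, w.valuation F x = WithZero.exp i := ⟨_, (WithZero.exp_log h0).symm⟩
      obtain ⟨j, hj⟩ : ∃ j : ℤ, w.valuation F (b : F) = WithZero.exp j :=
        ⟨_, (WithZero.exp_log hb0).symm⟩
      rw [hi, hj, WithZero.log_exp, WithZero.log_exp, ← WithZero.exp_add, WithZero.exp_le_exp]
      omega
  have h2 := comboW_translate (s := s) (c := c) (ν := ν) hΦ a x (dvert S w b) ht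
  rw [← mean_combo hΦ a _ ht,
      show (fun z => combo Φ s c ν w (upMat (1 : Fˣ) x • dvert S w b) (pnt z t)
      * chi (-(emb (a : F) * z))) = fun z => combo Φ s c ν w (dvert S w b) (pnt z t) *
        chi (-(emb (a : F) * z))
      from funext fun z => by rw [hall k b x hk], mean_combo hΦ a _ ht, hax] at h2
  by_contra h0
  exact hne ((mul_eq_right₀ h0).1 h2.symm)

/-- Change the components at finitely many places by translations. -/
noncomputable def shiftPt (ω : FinPt F S) (U : Finset (Place F)) (x : Place F → F) : FinPt F S :=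
  ⟨fun v => if v ∈ U then upMat (1 : Fˣ) (x v) • ω.1 v else ω.1 v, by
    filter_upwards [ω.2, U.finite_toSet.compl_mem_cofinite] with v hv hU
    simp only [Set.mem_compl_iff, Finset.mem_coe] at hU
    simp [hU, hv]⟩

/-- **Removing an exceptional place.** If all coefficients vanish at the points standard on
`insert w T`, they vanish at those standard on `T`. -/
theorem van_remove (hΦ : IsBasic Φ) (hcst : ∀ μ t, Pos t → cst Φ μ t = 0) (T : Finset (Place F))
    (hT : ∀ v ∈ T, v ∉ S) (hw : w ∉ S) (hwT : w ∉ T)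
    (hQ : ∀ ω : FinPt F S, (∀ v ∈ insert w T, ω.1 v = stdP S v) → Van Φ ω)
    (ω : FinPt F S) (hω : ∀ v ∈ T, ω.1 v = stdP S v) : Van Φ ω := by
  choose x1 hx1 hx1' using fun v : Place F => exists_psi_ne (F := F) v
  have hne : ∀ v ∈ T, v ≠ w := fun v hv e => hwT (e ▸ hv)
  -- the alternating combination of translates at the places of `T`
  have hsum : ∀ (a : Fˣ) (y : Vert S w) t, Pos t →
      comboW Φ T.powerset (fun U => (-1) ^ U.card) (fun U => shiftPt ω U x1) w a y t
        = (∏ v ∈ T, (1 - psi v ((a : F) * x1 v))) * Wh Φ (upMat a (0 : F) • ω.set w y)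
            (sc a t) := by
    intro a y t ht
    rw [comboW, show (∏ v ∈ T, (1 - psi v ((a : F) * x1 v)))
        = ∑ U ∈ T.powerset, (∏ v ∈ U, -psi v ((a : F) * x1 v)) * ∏ v ∈ T \ U, (1 : ℂ) by
      rw [← Finset.prod_add]; exact Finset.prod_congr rfl fun v _ => by ring, Finset.sum_mul]
    refine Finset.sum_congr rfl fun U hU => ?_
    rw [Finset.mem_powerset] at hU
    rw [(hΦ.Wh_shift (T := U) (x := fun v => (a : F) * x1 v) (ω := upMat a (0 : F) • ω.set w y)
      (ω' := upMat a (0 : F) • (shiftPt ω U x1).set w y) (fun v hv => ?_) (fun v hv => ?_)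
        (pos_sc a ht)).1,
      Finset.prod_neg, Finset.prod_const_one]
    · ring
    · have hvw := hne v (hU hv)
      rw [FinPt.smul_apply, FinPt.smul_apply, FinPt.set_of_ne _ hvw, FinPt.set_of_ne _ hvw,
        ← smul_translate]
      simp [shiftPt, hv]
    · rw [FinPt.smul_apply, FinPt.smul_apply]
      rcases eq_or_ne v w with rfl | hvw
      · simp
      · rw [FinPt.set_of_ne _ hvw, FinPt.set_of_ne _ hvw]; simp [shiftPt, hv]
  -- it has no coefficient at small exponents
  have hsupp : ∀ (a b : Fˣ) t, Pos t →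
      WithZero.exp (cnd w : ℤ) ≤ w.valuation F (a : F) * w.valuation F (b : F) →
      comboW Φ T.powerset (fun U => (-1) ^ U.card) (fun U => shiftPt ω U x1) w a (dvert S w b) t =
          0 := by
    intro a b t ht hab
    rw [hsum a _ t ht]
    by_cases hz : ∃ v ∈ T, psi v ((a : F) * x1 v) = 1
    · obtain ⟨v, hv, hv1⟩ := hz
      exact mul_eq_zero_of_left (Finset.prod_eq_zero hv (by rw [hv1, sub_self])) _
    push Not at hz
    refine mul_eq_zero_of_right _ ?_
    set μ := upMat a (0 : F) • ω.set w (dvert S w b)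
    have hμw : μ.1 w = dvert S w (a * b) := by
      simp only [μ, FinPt.smul_apply, FinPt.set_self, smul_dvert]
    have key : ∀ (v : Place F), v ∉ S → ∀ e : Fˣ, μ.1 v = dvert S v e →
        WithZero.exp ((cnd v : ℤ) + 1) ≤ v.valuation F (e : F) → Wh Φ μ (sc a t) = 0 := by
      intro v hv e he hle
      have h := van_of_neg hΦ μ hv hle _ (pos_sc a ht)
      rwa [← he, FinPt.set_eq_self] at h
    have hge : ∀ v ∈ T, 1 ≤ v.valuation F (a : F) := by
      intro v hv
      by_contra hlt
      rw [not_le] at hlt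
      refine hz v hv (psi_of_le_cnd ?_)
      have ha0 : v.valuation F (a : F) ≠ 0 := (v.valuation F).ne_zero_iff.2 a.ne_zero
      rw [← WithZero.exp_log ha0, ← WithZero.exp_zero, WithZero.exp_lt_exp] at hlt
      rw [map_mul]
      refine (mul_le_mul_right (hx1 v) _).trans ?_
      conv_lhs => rw [← WithZero.exp_log ha0]
      rw [← WithZero.exp_add, WithZero.exp_le_exp]; omega
    have hT' : ∀ v ∈ T, μ.1 v = dvert S v (a * dlt v) := by
      intro v hv
      simp only [μ, FinPt.smul_apply, FinPt.set_of_ne _ (hne v hv), hω v hv, stdP, smul_dvert]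
    by_cases hbig : ∃ v ∈ T, 1 < v.valuation F (a : F)
    · obtain ⟨v, hv, hlt⟩ := hbig
      refine key v (hT v hv) _ (hT' v hv) ?_
      have ha0 : v.valuation F (a : F) ≠ 0 := (v.valuation F).ne_zero_iff.2 a.ne_zero
      rw [← WithZero.exp_log ha0, ← WithZero.exp_zero, WithZero.exp_lt_exp] at hlt
      rw [Units.val_mul, map_mul, val_dlt, ← WithZero.exp_log ha0, ← WithZero.exp_add,
        WithZero.exp_le_exp]
      omega
    push Not at hbig
    rcases eq_or_lt_of_le hab with heq | hlt
    · refine hQ μ (fun v hv => ?_) _ (pos_sc a ht)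
      rcases Finset.mem_insert.1 hv with rfl | hv
      · rw [hμw, stdP]
        exact dvert_eq_of_val hw (by rw [Units.val_mul, map_mul, ← heq, val_dlt])
      · rw [hT' v hv, stdP]
        exact dvert_eq_of_val (hT v hv) (by
          rw [Units.val_mul, map_mul, le_antisymm (hbig v hv) (hge v hv), one_mul])
    · refine key w hw _ hμw ?_
      have hab0 : w.valuation F (a : F) * w.valuation F (b : F) ≠ 0 :=
        mul_ne_zero ((w.valuation F).ne_zero_iff.2 a.ne_zero)
          ((w.valuation F).ne_zero_iff.2 b.ne_zero)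
      rw [← WithZero.exp_log hab0, WithZero.exp_lt_exp] at hlt
      rw [Units.val_mul, map_mul, ← WithZero.exp_log hab0, WithZero.exp_le_exp]
      omega
  obtain ⟨x, b, hxb⟩ := exists_dvert hw (ω.1 w)
  rw [← FinPt.set_eq_self ω w, hxb]
  refine van_set_translate hΦ x fun t ht => ?_
  have h := comboW_eq_zero hΦ hcst hw hsupp 1 b ht
  rw [hsum 1 _ t ht, upMat_one, one_smul, sc_one] at h
  refine (mul_eq_zero.1 h).resolve_left (Finset.prod_ne_zero_iff.2 fun v _ => sub_ne_zero.2 ?_)
  rw [Units.val_one, one_mul]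
  exact (hx1' v).symm

end Fermat.LT.Mult
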