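import Fermat.Agent.LT.Mult.Mean
import Fermat.Agent.LT.CuspLocal

/-!
# Multiplicity: the standard additive character, its local components, Fourier completeness

`psi` is the local component of the character `chiF`, with conductor exponent `cnd`;
`eq_zero_of_mean_eq_zero` is the completeness.
-/

set_option autoImplicit false
set_option linter.unusedSectionVars false
open NumberField MeasureTheory IsDedekindDomain Filter
open scoped Classical Real

namespace Fermat.LT.Mult

variable {F : Type*} [Field F] [NumberField F]

/-- The trace pairing on `ℂ ^ r`. -/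
noncomputable def trS : (InfinitePlace F → ℂ) →ₗ[ℝ] ℝ where
  toFun z := ∑ w, 2 * (z w).re
  map_add' x y := by simp [mul_add, Finset.sum_add_distrib]
  map_smul' c x := by simp [Finset.mul_sum, mul_left_comm]

/-- The trace pairing is continuous. -/
lemma continuous_trS : Continuous (trS (F := F)) := by
  change Continuous fun z : InfinitePlace F → ℂ => ∑ w, 2 * (z w).re
  fun_prop

/-- `exp (2πi tr z)`. -/
noncomputable def chi (z : InfinitePlace F → ℂ) : ℂ :=
  Complex.exp (2 * π * Complex.I * (trS z : ℂ))

/-- `chi` is continuous. -/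
lemma continuous_chi : Continuous (chi (F := F)) :=
  Complex.continuous_exp.comp (continuous_const.mul (Complex.continuous_ofReal.comp continuous_trS))

/-- `chi` is a character. -/
lemma chi_add (x y : InfinitePlace F → ℂ) : chi (x + y) = chi x * chi y := by
  rw [chi, chi, chi, map_add, Complex.ofReal_add, mul_add, Complex.exp_add]

/-- `chi` is one at zero. -/
@[simp] lemma chi_zero : chi (0 : InfinitePlace F → ℂ) = 1 := by simp [chi]

/-- `chi` takes values on the unit circle. -/
lemma norm_chi (z : InfinitePlace F → ℂ) : ‖chi z‖ = 1 := by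
  rw [chi, show (2 * π * Complex.I * (trS z : ℂ)) = ((2 * π * trS z : ℝ) : ℂ) *
    Complex.I by push_cast; ring]
  exact Complex.norm_exp_ofReal_mul_I _

variable [IsTotallyComplex F]

/-- The trace pairing of an embedded element is its rational trace. -/
lemma trS_emb (b : F) : trS (emb b) = ((Algebra.trace ℚ F b : ℚ) : ℝ) := by
  have h := trace_eq_sum_embeddings ℂ (K := ℚ) (L := F) (x := b)
  rw [← Fintype.sum_equiv (RingHom.equivRatAlgHom F ℂ) (fun φ => φ b) (fun σ => σ b) (fun φ => by
    simp [RingHom.equivRatAlgHom_apply]), ← Finset.sum_fiberwise Finset.univ InfinitePlace.mk] at h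
  have h2 : ∀ w : InfinitePlace F,
      (∑ φ with InfinitePlace.mk φ = w, φ b) = ((2 * (w.embedding b).re : ℝ) : ℂ) := fun w => by
    have hne : w.embedding ≠ ComplexEmbedding.conjugate w.embedding := fun he =>
      (InfinitePlace.not_isReal_iff_isComplex.2 (IsTotallyComplex.isComplex w))
        (InfinitePlace.isReal_iff.2 (ComplexEmbedding.isReal_iff.2 he.symm))
    rw [show ({φ | InfinitePlace.mk φ = w} : Finset (F →+* ℂ))
      = {w.embedding, ComplexEmbedding.conjugate w.embedding} from ?_, Finset.sum_pair hne,
      ComplexEmbedding.conjugate_coe_eq, Complex.add_conj]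
    ext φ
    simp only [Finset.mem_filter, Finset.mem_univ, true_and, Finset.mem_insert,
      Finset.mem_singleton]
    conv_lhs => rw [← InfinitePlace.mk_embedding w, InfinitePlace.mk_eq_iff]
    constructor
    · rintro (e | e)
      · exact Or.inl e
      · exact Or.inr
          (by rw [← e, ComplexEmbedding.conjugate, ComplexEmbedding.conjugate, star_star])
    · rintro (e | e)
      · exact Or.inl e
      · exact Or.inr (by rw [e, ComplexEmbedding.conjugate, ComplexEmbedding.conjugate, star_star])
  simp only [h2] at h
  rw [eq_ratCast, ← Complex.ofReal_sum, ← Complex.ofReal_ratCast, Complex.ofReal_inj] at h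
  rw [h]
  rfl

/-- The character `exp (-2πi Tr b)` of `F`. -/
noncomputable def chiF (b : F) : ℂ := chi (-emb b)

/-- `chiF` is a character. -/
lemma chiF_add (a b : F) : chiF (a + b) = chiF a * chiF b := by
  rw [chiF, map_add, neg_add, chi_add]; rfl

/-- `chiF` is one at zero. -/
@[simp] lemma chiF_zero : chiF (0 : F) = 1 := by simp [chiF]

/-- The character of `F` is trivial exactly on elements of integral trace. -/
lemma chiF_eq_one_iff (b : F) : chiF b = 1 ↔ ∃ n : ℤ, Algebra.trace ℚ F b = n := by
  rw [chiF, chi, map_neg, trS_emb, Complex.exp_eq_one_iff]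
  constructor
  · rintro ⟨n, hn⟩
    have hne : (2 * π * Complex.I : ℂ) ≠ 0 := by simp [Real.pi_ne_zero, Complex.I_ne_zero]
    rw [mul_comm (n : ℂ)] at hn
    have h1 := mul_left_cancel₀ hne hn
    refine ⟨-n, ?_⟩
    have h2 : (((Algebra.trace ℚ F b : ℚ) : ℝ) : ℂ) = ((-n : ℤ) : ℂ) := by
      push_cast at h1 ⊢
      linear_combination -h1
    exact_mod_cast h2
  · rintro ⟨n, hn⟩
    exact ⟨-n, by rw [hn]; push_cast; ring⟩

/-- The character of `F` is trivial on integers. -/
lemma chiF_int (l : 𝓞 F) : chiF (l : F) = 1 := by
  rw [chiF_eq_one_iff]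
  have h : IsIntegral ℤ (Algebra.trace ℚ F (l : F)) :=
    Algebra.isIntegral_trace (RingOfIntegers.isIntegral_coe l)
  obtain ⟨n, hn⟩ := IsIntegrallyClosed.isIntegral_iff.1 h
  exact ⟨n, by rw [← hn]; rfl⟩

/-- `chiF` is trivial on the integers of `F`. -/
lemma chiF_of_integral {b : F} (h : ∀ v : Place F, v.valuation F b ≤ 1) : chiF b = 1 := by
  obtain ⟨l, rfl⟩ := HeightOneSpectrum.mem_integers_of_valuation_le_one F b h
  exact chiF_int l

/-- The additive character composed with negation is periodic. -/
lemma isPer_chi_neg : IsPer fun z : InfinitePlace F → ℂ => chi (-z) := by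
  refine ⟨continuous_chi.comp continuous_neg, 1, one_ne_zero, fun z l => ?_⟩
  change chi _ = chi _
  rw [neg_add, chi_add, Nat.cast_one, one_mul,
    show chi (-emb (l : F)) = 1 from chiF_int l, mul_one]

/-- The characters of the elements of `F` have a period lattice. -/
lemma isPer_chi_mul (a : F) : IsPer fun z : InfinitePlace F → ℂ => chi (-(emb a * z)) := by
  rcases eq_or_ne a 0 with rfl | ha
  · simpa using IsPer.const (F := F) 1
  · exact (mean_comp_mul isPer_chi_neg ha).1

/-- **Completeness**: all Fourier coefficients zero. -/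
theorem eq_zero_of_mean_eq_zero {g : (InfinitePlace F → ℂ) → ℂ} (hg : IsPer g)
    (h : ∀ a : F, mean (fun z => g z * chi (-(emb a * z))) = 0) : g = 0 := by
  obtain ⟨hc, M, hM, p⟩ := hg
  set b := integralBasis F
  set b' := (Algebra.traceForm ℚ F).dualBasis (traceForm_nondegenerate ℚ F) b
  let f : C(Tor F, ℂ) := ⟨tlift M g, continuous_tlift p hc⟩
  -- each coefficient on the torus is the mean against the character of an element of `F`
  have hcoef : UnitAddTorus.mFourierCoeff (⇑f) = 0 := by
    funext m
    set a : F := ((M : F))⁻¹ * ∑ i, (m i : ℚ) • b' i with ha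
    have htr : ∀ j, Algebra.trace ℚ F (a * ((M : F) * (RingOfIntegers.basis F j : F))) = m j := by
      intro j
      have e : a * ((M : F) * (RingOfIntegers.basis F j : F))
          = (∑ i, (m i : ℚ) • b' i) * b j := by
        rw [ha, show b j = algebraMap (𝓞 F) F (RingOfIntegers.basis F j) from
          integralBasis_apply F j]
        have : (M : F) ≠ 0 := Nat.cast_ne_zero.2 hM
        field_simp
      rw [e, Finset.sum_mul, map_sum]
      simp only [smul_mul_assoc, map_smul, smul_eq_mul]
      have e2 : ∀ i, Algebra.trace ℚ F (b' i * b j) = if j = i then 1 else 0 := fun i => by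
        rw [← Algebra.traceForm_apply]
        exact LinearMap.BilinForm.apply_dualBasis_left _ _ _ _
      simp [e2]
    have hpar : ∀ s : BIdx F → ℝ, trS (emb a * par M s) = ∑ j, s j * (m j : ℝ) := fun s => by
      rw [par_apply, Finset.mul_sum, map_sum]
      refine Finset.sum_congr rfl fun j _ => ?_
      rw [show ((M : ℝ) * s j) • basisR j =
        s j • emb ((M : F) * (RingOfIntegers.basis F j : F)) from ?_,
        mul_smul_comm, ← map_mul, map_smul, trS_emb, htr, smul_eq_mul]
      · norm_num
      · rw [map_mul, map_natCast, basisR_apply, mul_comm, ← smul_smul]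
        congr 1
    have hper : Per M fun z => g z * chi (-(emb a * z)) := p.mul fun z l => by
      show chi _ = chi _
      rw [mul_add, neg_add, chi_add, ← map_mul,
        show chi (-emb (a * ((M : F) * (l : F)))) = 1 from ?_, mul_one]
      rw [← (RingOfIntegers.basis F).sum_repr l]
      refine (chiF_eq_one_iff _).2 ⟨∑ j, (RingOfIntegers.basis F).repr l j * m j, ?_⟩
      push_cast
      simp only [zsmul_eq_mul, Finset.mul_sum, map_sum]
      refine Finset.sum_congr rfl fun j _ => ?_
      rw [show a *
        ((M : F) * ((((RingOfIntegers.basis F).repr l j : ℤ) : F) * (RingOfIntegers.basis F j : F)))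
        = ((RingOfIntegers.basis F).repr l j : ℚ) •
            (a * ((M : F) * (RingOfIntegers.basis F j : F))) by
          rw [Algebra.smul_def, map_intCast]; ring, map_smul, htr, smul_eq_mul]
    have hc2 : Continuous fun z => g z * chi (-(emb a * z)) :=
      hc.mul (continuous_chi.comp (continuous_const.mul continuous_id).neg)
    have h0 := h a
    rw [mean_eq hM hper hc2] at h0
    change UnitAddTorus.mFourierCoeff _ m = 0
    rw [← h0, UnitAddTorus.mFourierCoeff, meanM]
    refine integral_congr_ae (Eventually.of_forall fun q => ?_)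
    change UnitAddTorus.mFourier (-m) q • f q = g (par M fun i => rep (q i)) * chi _
    conv_lhs => rw [show q = fun i => ((rep (q i) : ℝ) : UnitAddCircle) from funext fun i =>
      (coe_rep _).symm]
    rw [smul_eq_mul, mul_comm]
    congr 1
    · exact tlift_mk p _
    · rw [chi, map_neg, hpar]
      change ∏ i, fourier ((-m) i) ((rep (q i) : ℝ) : UnitAddCircle) = _
      simp only [fourier_coe_apply, ← Complex.exp_sum]
      congr 1
      push_cast
      rw [mul_neg, Finset.mul_sum, ← Finset.sum_neg_distrib]
      exact Finset.sum_congr rfl fun i _ => by simp; ring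
  -- so the function on the torus vanishes
  have hf : ∀ x, f x = 0 := fun x => by
    have hs : Summable (UnitAddTorus.mFourierCoeff (⇑f)) := hcoef ▸ summable_zero
    have h1 := UnitAddTorus.hasSum_mFourier_series_apply_of_summable hs x
    simp only [hcoef, Pi.zero_apply, zero_smul] at h1
    exact h1.unique hasSum_zero
  funext z
  obtain ⟨s, rfl⟩ := par_surjective hM z
  rw [← tlift_mk p s]
  exact hf _

/-! ### local components -/

/-- An element is approximable at one place by one integral elsewhere. -/
lemma exists_local_approx (v : Place F) (x : F) :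
    ∃ b : F, v.valuation F (b - x) ≤ 1 ∧ ∀ w, w ≠ v → w.valuation F b ≤ 1 := by
  obtain ⟨b, h1, h2⟩ := exists_approx {v} (fun _ => x) 0
  exact ⟨b, by simpa using h1 v (Finset.mem_singleton_self v), fun w hw => h2 w (by simpa using hw)⟩

/-- Approximation at one place. -/
noncomputable def ap (v : Place F) (x : F) : F := (exists_local_approx v x).choose

/-- The approximation is good at the place. -/
lemma ap_near (v : Place F) (x : F) : v.valuation F (ap v x - x) ≤ 1 :=
  (exists_local_approx v x).choose_spec.1

/-- The approximation is integral elsewhere. -/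
lemma ap_away {v w : Place F} (h : w ≠ v) (x : F) : w.valuation F (ap v x) ≤ 1 :=
  (exists_local_approx v x).choose_spec.2 w h

/-- The local component of `chiF`. -/
noncomputable def psi (v : Place F) (x : F) : ℂ := chiF (ap v x)

/-- The local component is the global character at an approximation integral elsewhere. -/
lemma psi_eq_chiF {v : Place F} {x b : F} (h1 : v.valuation F (b - x) ≤ 1)
    (h2 : ∀ w, w ≠ v → w.valuation F b ≤ 1) : chiF b = psi v x := by
  have h : chiF (b - ap v x) = 1 := chiF_of_integral fun w => by
    by_cases hw : w = v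
    · subst hw
      rw [show b - ap w x = (b - x) - (ap w x - x) by ring]
      exact ((w.valuation F).map_sub _ _).trans (max_le h1 (ap_near w x))
    · exact ((w.valuation F).map_sub _ _).trans (max_le (h2 w hw) (ap_away hw x))
  rw [psi, ← mul_one (chiF (ap v x)), ← h, ← chiF_add, add_sub_cancel]

/-- The local component is additive. -/
lemma psi_add (v : Place F) (x y : F) : psi v (x + y) = psi v x * psi v y := by
  rw [← psi_eq_chiF (b := ap v x + ap v y) (x := x + y) ?_ ?_, chiF_add]
  · rfl
  · rw [show ap v x + ap v y - (x + y) = (ap v x - x) + (ap v y - y) by ring]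
    exact ((v.valuation F).map_add _ _).trans (max_le (ap_near v x) (ap_near v y))
  · exact fun w hw => ((w.valuation F).map_add _ _).trans (max_le (ap_away hw x) (ap_away hw y))

/-- The local character is trivial on local integers. -/
lemma psi_of_le_one {v : Place F} {x : F} (h : v.valuation F x ≤ 1) : psi v x = 1 := by
  rw [← psi_eq_chiF (b := 0) (x := x) (by simpa using h) (fun w _ => by simp), chiF_zero]

/-- The local character is one at zero. -/
@[simp] lemma psi_zero (v : Place F) : psi v (0 : F) = 1 := psi_of_le_one (by simp)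

/-- A global element integral outside `T`, with given components: the character is the product. -/
lemma chiF_eq_prod (T : Finset (Place F)) (x : Place F → F) {b : F}
    (h1 : ∀ v ∈ T, v.valuation F (b - x v) ≤ 1) (h2 : ∀ v ∉ T, v.valuation F b ≤ 1) :
    chiF b = ∏ v ∈ T, psi v (x v) := by
  induction T using Finset.induction_on generalizing b with
  | empty => simpa using chiF_of_integral fun v => h2 v (Finset.notMem_empty v)
  | insert v T hv ih =>
    rw [Finset.prod_insert hv, psi, ← ih (b := b - ap v (x v)), ← chiF_add, add_sub_cancel]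
    · intro w hw
      have hne : w ≠ v := fun e => hv (e ▸ hw)
      rw [show b - ap v (x v) - x w = (b - x w) - ap v (x v) by ring]
      exact ((w.valuation F).map_sub _ _).trans
        (max_le (h1 w (Finset.mem_insert_of_mem hw)) (ap_away hne _))
    · intro w hw
      by_cases hne : w = v
      · subst hne
        rw [show b - ap w (x w) = (b - x w) - (ap w (x w) - x w) by ring]
        exact ((w.valuation F).map_sub _ _).trans
          (max_le (h1 w (Finset.mem_insert_self w T)) (ap_near w _))
      · exact ((w.valuation F).map_sub _ _).trans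
          (max_le (h2 w (by simp [hne, hw])) (ap_away hne _))

/-- The dual lattice of the integers has a common denominator. -/
lemma exists_dual_den : ∃ D : ℕ, D ≠ 0 ∧
    ∀ a : F, (∀ l : 𝓞 F, chiF (a * (l : F)) = 1) →
      ∀ v : Place F, v.valuation F ((D : F) * a) ≤ 1 := by
  set b := integralBasis F
  set b' := (Algebra.traceForm ℚ F).dualBasis (traceForm_nondegenerate ℚ F) b
  choose D hD l hl using fun i => exists_den (b' i)
  refine ⟨∏ i, D i, Finset.prod_ne_zero_iff.2 fun i _ => hD i, fun a ha v => ?_⟩
  have htr : ∀ i, ∃ n : ℤ, Algebra.trace ℚ F (a * b i) = n := fun i =>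
    (chiF_eq_one_iff _).1 (by
      rw [show b i = ((RingOfIntegers.basis F i : 𝓞 F) : F) from integralBasis_apply F i]
      exact ha _)
  choose n hn using htr
  have e : a = ∑ i, (n i : ℚ) • b' i := by
    conv_lhs => rw [← b'.sum_repr a]
    refine Finset.sum_congr rfl fun i _ => ?_
    rw [LinearMap.BilinForm.dualBasis_repr_apply, Algebra.traceForm_apply, hn]
  rw [e, Finset.mul_sum]
  refine (v.valuation F).map_sum_le fun i _ => ?_
  rw [← Finset.prod_erase_mul _ _ (Finset.mem_univ i), Nat.cast_mul, Algebra.smul_def, map_intCast,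
    show ∀ A B C E : F, A * B * (C * E) = (A * C) * (B * E) from fun A B C E => by ring, hl i,
    map_mul, map_mul]
  refine mul_le_one' (mul_le_one' ?_ ?_) (v.valuation_le_one (l i))
  · exact_mod_cast v.valuation_le_one (K := F) ((∏ j ∈ Finset.univ.erase i, D j : ℕ) : 𝓞 F)
  · exact_mod_cast v.valuation_le_one (K := F) ((n i : ℤ) : 𝓞 F)

/-- Every value of the valuation is attained by a nonzero element. -/
lemma exists_val_eq (v : Place F) (m : ℤ) : ∃ a : Fˣ, v.valuation F (a : F) = WithZero.exp m := by
  obtain ⟨u, hu⟩ := v.valuation_exists_uniformizer F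
  have h0 : u ≠ 0 := fun h => by rw [h, map_zero] at hu; exact WithZero.exp_ne_zero hu.symm
  refine ⟨Units.mk0 (u ^ (-m)) (zpow_ne_zero _ h0), ?_⟩
  rw [Units.val_mk0, map_zpow₀, hu, ← WithZero.exp_zsmul]
  simp

/-- A denominator of the inverse different. -/
noncomputable def dDen (F : Type*) [Field F] [NumberField F] [IsTotallyComplex F] : ℕ :=
  (exists_dual_den (F := F)).choose

/-- The denominator is not zero. -/
lemma dDen_ne_zero : dDen F ≠ 0 := (exists_dual_den (F := F)).choose_spec.1

/-- Every local component is nontrivial on some ball. -/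
lemma exists_psi_ne_one (v : Place F) :
    ∃ m : ℕ, ∃ x : F, v.valuation F x ≤ WithZero.exp ((m + 1 : ℕ) : ℤ) ∧ psi v x ≠ 1 := by
  set D := dDen F
  have hD : D ≠ 0 := dDen_ne_zero
  have hspec := (exists_dual_den (F := F)).choose_spec.2
  by_contra hne
  push Not at hne
  obtain ⟨k, hk⟩ : ∃ k : ℕ, WithZero.exp (-(k : ℤ)) ≤ v.valuation F ((D : F)) := by
    have h0 : v.valuation F (D : F) ≠ 0 := (v.valuation F).ne_zero_iff.2 (Nat.cast_ne_zero.2 hD)
    refine ⟨(-WithZero.log (v.valuation F (D : F))).toNat, ?_⟩
    conv_rhs => rw [← WithZero.exp_log h0]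
    rw [WithZero.exp_le_exp]; omega
  obtain ⟨a, ha⟩ := exists_val_eq v (k + 1 : ℕ)
  obtain ⟨b, hb1, hb2⟩ := exists_local_approx v (a : F)
  have hb : v.valuation F b = WithZero.exp ((k + 1 : ℕ) : ℤ) := by
    have hlt : v.valuation F (b - a) < v.valuation F (a : F) := by
      refine lt_of_le_of_lt hb1 ?_
      rw [ha, ← WithZero.exp_zero, WithZero.exp_lt_exp]; omega
    have e2 := (v.valuation F).map_add_eq_of_lt_left hlt
    rw [show (a : F) + (b - a) = b by ring] at e2
    rw [e2, ha]
  have h1 := hspec b (fun l => ?_) v
  · rw [map_mul, hb] at h1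
    have h2 := (mul_le_mul_left hk (WithZero.exp ((k + 1 : ℕ) : ℤ))).trans h1
    rw [← WithZero.exp_add, ← WithZero.exp_zero, WithZero.exp_le_exp] at h2
    push_cast at h2; omega
  · rw [psi_eq_chiF (v := v) (x := b * (l : F)) (by simp) (fun w hw => ?_)]
    · refine hne k _ ?_
      rw [map_mul, hb]
      exact mul_le_of_le_one_right' (v.valuation_le_one l)
    · rw [map_mul]; exact mul_le_one' (hb2 w hw) (w.valuation_le_one l)

/-- The conductor exponent of `psi v`. -/
noncomputable def cnd (v : Place F) : ℕ := Nat.find (exists_psi_ne_one v)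

/-- The local component is trivial up to the conductor exponent. -/
lemma psi_of_le_cnd {v : Place F} {x : F} (h : v.valuation F x ≤ WithZero.exp (cnd v : ℤ)) :
    psi v x = 1 := by
  rcases Nat.eq_zero_or_eq_sub_one_add_one (n := cnd v) with h0 | h0
  · exact psi_of_le_one (by simpa [h0] using h)
  · by_contra hne
    exact Nat.find_min (exists_psi_ne_one v) (m := cnd v - 1) (by unfold cnd at h0 ⊢; omega)
      ⟨x, by rwa [← h0], hne⟩

/-- One step beyond the conductor the local character is nontrivial. -/
lemma exists_psi_ne (v : Place F) :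
    ∃ x : F, v.valuation F x ≤ WithZero.exp ((cnd v : ℤ) + 1) ∧ psi v x ≠ 1 := by
  obtain ⟨x, h1, h2⟩ := Nat.find_spec (exists_psi_ne_one v)
  exact ⟨x, by simpa [cnd] using h1, h2⟩

/-- The conductor exponent vanishes where the denominator is a unit. -/
lemma cnd_eq_zero_of_unit {v : Place F} (h : v.valuation F (dDen F : F) = 1) : cnd v = 0 := by
  have hspec := (exists_dual_den (F := F)).choose_spec.2
  by_contra hne
  obtain ⟨a, ha⟩ := exists_val_eq v 1
  obtain ⟨b, hb1, hb2⟩ := exists_local_approx v (a : F)
  have hlt : v.valuation F (b - a) < v.valuation F (a : F) := by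
    refine lt_of_le_of_lt hb1 ?_
    rw [ha, ← WithZero.exp_zero, WithZero.exp_lt_exp]; omega
  have e2 := (v.valuation F).map_add_eq_of_lt_left hlt
  rw [show (a : F) + (b - a) = b by ring, ha] at e2
  have h1 := hspec b (fun l => ?_) v
  · rw [show (exists_dual_den (F := F)).choose = dDen F from rfl, map_mul, h, e2, one_mul,
      ← WithZero.exp_zero, WithZero.exp_le_exp] at h1
    omega
  · rw [psi_eq_chiF (v := v) (x := b * (l : F)) (by simp) (fun w hw => ?_)]
    · refine psi_of_le_cnd ?_
      rw [map_mul, e2]
      refine (mul_le_of_le_one_right' (v.valuation_le_one l)).trans (WithZero.exp_le_exp.2 ?_)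
      omega
    · rw [map_mul]; exact mul_le_one' (hb2 w hw) (w.valuation_le_one l)

/-- The conductor exponent vanishes at almost all places. -/
lemma eventually_cnd_eq_zero : ∀ᶠ v : Place F in cofinite, cnd v = 0 := by
  have h : ∀ᶠ v : Place F in cofinite,
      v.valuation F (dDen F : F) ≤ 1 ∧ v.valuation F ((dDen F : F))⁻¹ ≤ 1 :=
    (eventually_valuation_le_one _).and (eventually_valuation_le_one _)
  filter_upwards [h] with v hv
  refine cnd_eq_zero_of_unit (le_antisymm hv.1 ?_)
  have h0 : v.valuation F (dDen F : F) ≠ 0 :=
    (v.valuation F).ne_zero_iff.2 (Nat.cast_ne_zero.2 dDen_ne_zero)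
  have := hv.2
  rw [map_inv₀, inv_le_one₀ (zero_lt_iff.2 h0)] at this
  exact this

end Fermat.LT.Mult
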