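import Fermat.Agent.LT.Mult.Char
import Fermat.Agent.LT.CuspKer
import Fermat.Agent.LT.SphKer
import Fermat.Agent.LT.MultDef

/-!
# Multiplicity: Fourier coefficients of eigenfunctions

`IsBasic.combo_eq_zero`: a combination with all coefficients zero vanishes; `IsBasic.cst_eq_zero`
kills the constant term for the cuspidal type.
-/

set_option autoImplicit false
set_option linter.unusedSectionVars false
open NumberField MeasureTheory Filter
open scoped Classical

namespace Fermat.LT.Mult

variable {F : Type*} [Field F] [NumberField F] {S : Set (Place F)}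

/-- The archimedean point with coordinates `(z, t)`. -/
noncomputable def pnt (z : InfinitePlace F → ℂ) (t : InfinitePlace F → ℝ) : InfinitePlace F → H3 :=
  fun w => H3.mk (z w) (t w)

/-- All heights positive. -/
def Pos (t : InfinitePlace F → ℝ) : Prop := ∀ w, 0 < t w

/-- Heights scaled by the absolute values of `a`. -/
noncomputable def sc (a : Fˣ) (t : InfinitePlace F → ℝ) : InfinitePlace F → ℝ :=
  fun w => w (a : F) * t w

/-- Scaled heights stay positive. -/
lemma pos_sc (a : Fˣ) {t : InfinitePlace F → ℝ} (ht : Pos t) : Pos (sc a t) := fun w =>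
  mul_pos (InfinitePlace.pos_iff.2 a.ne_zero) (ht w)

/-- The restriction to a horosphere. -/
noncomputable def slice (Φ : Pt F S → ℂ) (ω : FinPt F S) (t : InfinitePlace F → ℝ) :
    (InfinitePlace F → ℂ) → ℂ := fun z => Φ (ω, pnt z t)

/-- Invariant and continuous in the archimedean variables. -/
structure IsBasic (Φ : Pt F S → ℂ) : Prop where
  /-- The function is invariant under `GL₂(F)`. -/
  invariant : IsInvariant Φ
  /-- The function is continuous in the archimedean variables. -/
  continuous : ∀ ω : FinPt F S, Continuous fun x : InfinitePlace F → H3 => Φ (ω, x)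

/-- An eigenfunction without boundedness and without the archimedean condition. -/
structure IsCF (S Z : Set (Place F)) (lam : Place F → ℝ) (Φ : Pt F S → ℂ) : Prop where
  /-- The function is invariant and continuous in the archimedean variables. -/
  basic : IsBasic Φ
  /-- The function is of cuspidal type at the places of `S`. -/
  cuspType : ∀ v ∈ S, IsCuspType v Φ
  /-- Outside `S ∪ Z` the Hecke operator at `v` acts by `lam v`. -/
  hecke : ∀ v ∉ S ∪ Z, ∀ p, heckeT v Φ p = (lam v : ℂ) * Φ p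

/-- Horospheres are parametrised continuously. -/
lemma continuous_pnt {t : InfinitePlace F → ℝ} (ht : Pos t) :
    Continuous fun z : InfinitePlace F → ℂ => pnt z t := by
  refine continuous_pi fun w => ?_
  rw [isInducing_coord.continuous_iff]
  refine (show Continuous fun z : InfinitePlace F → ℂ => (z w, t w) by fun_prop).congr fun z => ?_
  exact (H3.coord_mk_of_pos _ (ht w)).symm

/-- A point is recovered from its coordinates. -/
lemma pnt_coord (x : InfinitePlace F → H3) :
    pnt (fun w => (H3.coord (x w)).1) (fun w => (H3.coord (x w)).2) = x :=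
  funext fun w => H3.mk_coord (x w)

variable [Finite S] [IsTotallyComplex F]

/-- An upper triangular matrix acts on horospheres affinely. -/
lemma upMat_smul_pnt (a : Fˣ) (b : F) (z : InfinitePlace F → ℂ) {t : InfinitePlace F → ℝ}
    (ht : Pos t) (w : InfinitePlace F) :
    atInf w (upMat a b) • pnt z t w = pnt (emb (a : F) * z + emb b) (sc a t) w := by
  rw [← H3.mk_coord (atInf w (upMat a b) • pnt z t w), coord_upMat_smul, pnt,
    H3.coord_mk_of_pos _ (ht w)]
  rfl

/-- Invariance on horospheres under the Borel subgroup. -/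
lemma IsBasic.slice_upMat {Φ : Pt F S → ℂ} (hΦ : IsBasic Φ) (a : Fˣ) (b : F) (ω : FinPt F S)
    (z : InfinitePlace F → ℂ) {t : InfinitePlace F → ℝ} (ht : Pos t) :
    slice Φ (upMat a b • ω) (sc a t) (emb (a : F) * z + emb b) = slice Φ ω t z := by
  have h := isInvariant_iff.1 hΦ.invariant (upMat a b) (ω, pnt z t)
  rw [slice, slice, ← h]
  congr 1
  refine Prod.ext rfl (funext fun w => ?_)
  exact (upMat_smul_pnt a b z ht w).symm

/-- Scaling by one does nothing. -/
lemma sc_one (t : InfinitePlace F → ℝ) : sc (1 : Fˣ) t = t := funext fun w => by simp [sc]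

/-- Restrictions to horospheres transform under rational translations. -/
lemma IsBasic.slice_translate {Φ : Pt F S → ℂ} (hΦ : IsBasic Φ) (b : F) (ω : FinPt F S)
    (z : InfinitePlace F → ℂ) {t : InfinitePlace F → ℝ} (ht : Pos t) :
    slice Φ (upMat 1 b • ω) t (z + emb b) = slice Φ ω t z := by
  have h := hΦ.slice_upMat 1 b ω z ht
  rwa [sc_one, Units.val_one, map_one, one_mul] at h

/-- Translations small at every place fix a finite point. -/
lemma exists_fix_exp (ω : FinPt F S) : ∃ (E : Finset (Place F)) (n : Place F → ℕ),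
    (∀ v ∉ E, n v = 0) ∧
    ∀ v (x : F), v.valuation F x ≤ WithZero.exp (-(n v : ℤ)) →
      upMat (1 : Fˣ) x • ω.1 v = ω.1 v := by
  choose m hm using fun v : Place F => exists_unip_fix v (ω.1 v)
  set E := (eventually_cofinite.1 ω.2).toFinset ∪ (Set.toFinite S).toFinset with hE
  refine ⟨E, fun v => if v ∈ E then m v else 0, fun v hv => if_neg hv, fun v x hx => ?_⟩
  by_cases hv : v ∈ E
  · exact hm v x (by simpa [hv] using hx)
  · simp only [hE, Finset.mem_union, Set.Finite.mem_toFinset, Set.mem_ofPred_eq, not_or,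
      not_not] at hv
    rw [hv.1]
    refine unip_fix_base hv.2 ?_
    have h' : v ∉ E := by simp [hE, hv.1, hv.2]
    simpa [h'] using hx

/-- The restriction of a basic function to a horosphere is periodic. -/
lemma IsBasic.isPer_slice {Φ : Pt F S → ℂ} (hΦ : IsBasic Φ) (ω : FinPt F S)
    {t : InfinitePlace F → ℝ} (ht : Pos t) : IsPer (slice Φ ω t) := by
  refine ⟨(hΦ.continuous ω).comp (continuous_pnt ht), ?_⟩
  obtain ⟨E, n, hn0, hn⟩ := exists_fix_exp ω
  obtain ⟨M, hM, hMv⟩ := exists_nat_small (F := F) n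
    (E.finite_toSet.subset fun v hv => by by_contra h; exact hv (hn0 v h))
  refine ⟨M, hM, fun z l => ?_⟩
  have hfix : upMat (1 : Fˣ) ((M : F) * (l : F)) • ω = ω := Subtype.ext (funext fun v => hn v _ (by
    rw [map_mul]
    exact (mul_le_of_le_one_right' (v.valuation_le_one l)).trans (hMv v)))
  have h := hΦ.slice_translate ((M : F) * (l : F)) ω z ht
  rwa [hfix] at h

/-- The coefficient at the character `1`. -/
noncomputable def Wh (Φ : Pt F S → ℂ) (ω : FinPt F S) (t : InfinitePlace F → ℝ) : ℂ :=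
  mean fun z => slice Φ ω t z * chi (-z)

/-- The constant term: the mean of the slice at heights `t`. -/
noncomputable def cst (Φ : Pt F S → ℂ) (ω : FinPt F S) (t : InfinitePlace F → ℝ) : ℂ :=
  mean (slice Φ ω t)

/-- The integrand of the coefficient has a period lattice. -/
lemma IsBasic.isPer_Wh {Φ : Pt F S → ℂ} (hΦ : IsBasic Φ) (ω : FinPt F S)
    {t : InfinitePlace F → ℝ} (ht : Pos t) : IsPer fun z => slice Φ ω t z * chi (-z) :=
  (hΦ.isPer_slice ω ht).mul isPer_chi_neg

/-- Translations act on the coefficient by the character. -/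
lemma IsBasic.Wh_translate {Φ : Pt F S → ℂ} (hΦ : IsBasic Φ) (b : F) (ω : FinPt F S)
    {t : InfinitePlace F → ℝ} (ht : Pos t) :
    Wh Φ (upMat 1 b • ω) t = chiF b * Wh Φ ω t := by
  rw [Wh, Wh, ← mean_translate (hΦ.isPer_Wh _ ht) (emb b), ← mean_const_mul _ (hΦ.isPer_Wh _ ht)]
  congr 1
  funext z
  rw [hΦ.slice_translate b ω z ht, neg_add, chi_add, chiF]
  ring

/-- Translations fix the constant term. -/
lemma IsBasic.cst_translate {Φ : Pt F S → ℂ} (hΦ : IsBasic Φ) (b : F) (ω : FinPt F S)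
    {t : InfinitePlace F → ℝ} (ht : Pos t) : cst Φ (upMat 1 b • ω) t = cst Φ ω t := by
  rw [cst, cst, ← mean_translate (hΦ.isPer_slice _ ht) (emb b)]
  exact congrArg mean (funext fun z => hΦ.slice_translate b ω z ht)

/-- The coefficient at `a`. -/
lemma IsBasic.mean_coef {Φ : Pt F S → ℂ} (hΦ : IsBasic Φ) (a : Fˣ) (ω : FinPt F S)
    {t : InfinitePlace F → ℝ} (ht : Pos t) :
    mean (fun z => slice Φ ω t z * chi (-(emb (a : F) * z))) = Wh Φ (upMat a 0 • ω) (sc a t) := by
  rw [Wh, ← (mean_comp_mul (hΦ.isPer_Wh (upMat a 0 • ω) (pos_sc a ht)) a.ne_zero).2]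
  congr 1
  funext z
  have h := hΦ.slice_upMat a 0 ω z ht
  rw [map_zero, add_zero] at h
  rw [h]

/-- A global translation realising local ones. -/
lemma exists_shift (ω : FinPt F S) (T : Finset (Place F)) (x : Place F → F) :
    ∃ b : F, (∀ v ∈ T, v.valuation F (b - x v) ≤ 1) ∧ (∀ v ∉ T, v.valuation F b ≤ 1) ∧
      (∀ v ∈ T, upMat (1 : Fˣ) b • ω.1 v = upMat (1 : Fˣ) (x v) • ω.1 v) ∧
      ∀ v ∉ T, upMat (1 : Fˣ) b • ω.1 v = ω.1 v := by
  obtain ⟨E, n, hn0, hn⟩ := exists_fix_exp ω
  obtain ⟨N, hN⟩ := Finset.bddAbove ((T ∪ E).image n)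
  obtain ⟨b, hb1, hb2⟩ := exists_approx (T ∪ E) (fun v => if v ∈ T then x v else 0) N
  have hle : ∀ (v : Place F) (y : F), v.valuation F y ≤ WithZero.exp (-(N : ℤ)) →
      v.valuation F y ≤ 1 :=
    fun v y h => h.trans (by rw [← WithZero.exp_zero, WithZero.exp_le_exp]; omega)
  have hle' : ∀ v ∈ T ∪ E, ∀ y : F, v.valuation F y ≤ WithZero.exp (-(N : ℤ)) →
      v.valuation F y ≤ WithZero.exp (-(n v : ℤ)) := fun v hv y h => h.trans (by
    rw [WithZero.exp_le_exp]
    have : n v ≤ N := hN (Finset.mem_coe.2 (Finset.mem_image_of_mem n hv))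
    omega)
  have h1 : ∀ v ∈ T, v.valuation F (b - x v) ≤ WithZero.exp (-(N : ℤ)) := fun v hv => by
    simpa [hv] using hb1 v (Finset.mem_union_left _ hv)
  have h2 : ∀ v ∈ E, v ∉ T → v.valuation F b ≤ WithZero.exp (-(N : ℤ)) := fun v hv hv' => by
    simpa [hv'] using hb1 v (Finset.mem_union_right _ hv)
  refine ⟨b, fun v hv => hle _ _ (h1 v hv), fun v hv => ?_, fun v hv => ?_, fun v hv => ?_⟩
  · by_cases hv' : v ∈ E
    · exact hle _ _ (h2 v hv' hv)
    · exact hb2 v (by simp [hv, hv'])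
  · rw [show b = x v + (b - x v) by ring, upMat_add, mul_smul,
      hn v _ (hle' v (Finset.mem_union_left _ hv) _ (h1 v hv))]
  · by_cases hv' : v ∈ E
    · exact hn v b (hle' v (Finset.mem_union_right _ hv') _ (h2 v hv' hv))
    · exact hn v b (by simpa [hn0 v hv'] using hb2 v (by simp [hv, hv']))

/-- **Local translations.** Unipotent translations at finitely many places multiply the coefficient
by their local characters and keep the constant term. -/
theorem IsBasic.Wh_shift {Φ : Pt F S → ℂ} (hΦ : IsBasic Φ) {T : Finset (Place F)} {x : Place F → F}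
    {ω ω' : FinPt F S} (h1 : ∀ v ∈ T, ω'.1 v = upMat (1 : Fˣ) (x v) • ω.1 v)
    (h2 : ∀ v ∉ T, ω'.1 v = ω.1 v) {t : InfinitePlace F → ℝ} (ht : Pos t) :
    Wh Φ ω' t = (∏ v ∈ T, psi v (x v)) * Wh Φ ω t ∧ cst Φ ω' t = cst Φ ω t := by
  obtain ⟨b, hb1, hb2, hb3, hb4⟩ := exists_shift ω T x
  have e : ω' = upMat (1 : Fˣ) b • ω := Subtype.ext (funext fun v => by
    rw [FinPt.smul_apply]
    by_cases hv : v ∈ T
    · rw [h1 v hv, hb3 v hv]
    · rw [h2 v hv, hb4 v hv])
  rw [e, hΦ.Wh_translate b ω ht, hΦ.cst_translate b ω ht, chiF_eq_prod T x hb1 hb2]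
  exact ⟨rfl, rfl⟩

/-- A local unipotent multiplies the coefficient by the local character and keeps the constant
term. -/
lemma IsBasic.Wh_set {Φ : Pt F S → ℂ} (hΦ : IsBasic Φ) (ω : FinPt F S) (v : Place F) (x : F)
    (y : Vert S v) {t : InfinitePlace F → ℝ} (ht : Pos t) :
    Wh Φ (ω.set v (upMat (1 : Fˣ) x • y)) t = psi v x * Wh Φ (ω.set v y) t ∧
      cst Φ (ω.set v (upMat (1 : Fˣ) x • y)) t = cst Φ (ω.set v y) t := by
  have h := hΦ.Wh_shift (T := {v}) (x := fun _ => x) (ω := ω.set v y)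
    (ω' := ω.set v (upMat (1 : Fˣ) x • y)) (fun u hu => by
      rw [Finset.mem_singleton] at hu
      subst hu
      rw [FinPt.set_self, FinPt.set_self])
    (fun u hu => by
      rw [Finset.mem_singleton] at hu
      rw [FinPt.set_of_ne _ hu, FinPt.set_of_ne _ hu]) ht
  simpa using h

/-- The coefficient vanishes at a point fixed by a translation with nontrivial character. -/
lemma IsBasic.Wh_eq_zero_of_fix {Φ : Pt F S → ℂ} (hΦ : IsBasic Φ) {ω : FinPt F S} {v : Place F}
    {x : F} (hfix : upMat (1 : Fˣ) x • ω.1 v = ω.1 v) (hne : psi v x ≠ 1)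
    {t : InfinitePlace F → ℝ} (ht : Pos t) : Wh Φ ω t = 0 := by
  have h := (hΦ.Wh_set ω v x (ω.1 v) ht).1
  rw [hfix, FinPt.set_eq_self] at h
  by_contra h0
  exact hne ((mul_eq_right₀ h0).1 h.symm)

/-- **A combination with all coefficients zero vanishes.** -/
theorem IsBasic.combo_eq_zero {Φ : Pt F S → ℂ} (hΦ : IsBasic Φ) {ι : Type*} (s : Finset ι)
    (c : ι → ℂ) (ν : ι → FinPt F S) {t : InfinitePlace F → ℝ} (ht : Pos t)
    (h0 : ∑ i ∈ s, c i * cst Φ (ν i) t = 0)
    (h1 : ∀ a : Fˣ, ∑ i ∈ s, c i * Wh Φ (upMat a 0 • ν i) (sc a t) = 0) (z : InfinitePlace F → ℂ) :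
    ∑ i ∈ s, c i * slice Φ (ν i) t z = 0 := by
  have hp : ∀ i, IsPer fun z => c i * slice Φ (ν i) t z := fun i =>
    (IsPer.const (c i)).mul (hΦ.isPer_slice _ ht)
  refine congrFun (eq_zero_of_mean_eq_zero (IsPer.sum s fun i _ => hp i) fun a => ?_) z
  have e : (fun z => (∑ i ∈ s, c i * slice Φ (ν i) t z) * chi (-(emb a * z)))
      = fun z => ∑ i ∈ s, c i * (slice Φ (ν i) t z * chi (-(emb a * z))) := by
    funext z; rw [Finset.sum_mul]; exact Finset.sum_congr rfl fun i _ => by ring
  rw [e, mean_sum s (g := fun i z => c i * (slice Φ (ν i) t z * chi (-(emb a * z))))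
    fun i _ => (IsPer.const (c i)).mul ((hΦ.isPer_slice _ ht).mul (isPer_chi_mul a))]
  rcases eq_or_ne a 0 with rfl | ha
  · rw [← h0]
    refine Finset.sum_congr rfl fun i _ => ?_
    simp only [map_zero, zero_mul, neg_zero, chi_zero, mul_one]
    exact mean_const_mul _ (hΦ.isPer_slice _ ht)
  · rw [← h1 (Units.mk0 a ha)]
    refine Finset.sum_congr rfl fun i _ => ?_
    rw [mean_const_mul _ ((hΦ.isPer_slice _ ht).mul (isPer_chi_mul a))]
    exact congrArg (c i * ·) (hΦ.mean_coef (Units.mk0 a ha) (ν i) ht)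

/-- Linearity in the function. -/
lemma Wh_sum {ι : Type*} (s : Finset ι) (c : ι → ℂ) {f : ι → Pt F S → ℂ}
    (hf : ∀ i ∈ s, IsBasic (f i)) (ω : FinPt F S) {t : InfinitePlace F → ℝ} (ht : Pos t) :
    Wh (fun p => ∑ i ∈ s, c i * f i p) ω t = ∑ i ∈ s, c i * Wh (f i) ω t := by
  rw [Wh, show (fun z => slice (fun p => ∑ i ∈ s, c i * f i p) ω t z * chi (-z))
      = fun z => ∑ i ∈ s, c i * (slice (f i) ω t z * chi (-z)) from funext fun z => by
    rw [slice, Finset.sum_mul]; exact Finset.sum_congr rfl fun i _ => mul_assoc _ _ _,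
    mean_sum s (g := fun i z => c i * (slice (f i) ω t z * chi (-z)))
      fun i hi => (IsPer.const (c i)).mul ((hf i hi).isPer_Wh ω ht)]
  exact Finset.sum_congr rfl fun i hi => mean_const_mul _ ((hf i hi).isPer_Wh ω ht)

/-- Coefficients of a finite combination of values at modified points. -/
lemma IsBasic.Wh_combo {Φ : Pt F S → ℂ} (hΦ : IsBasic Φ) {ι : Type*} (s : Finset ι)
    (c : ι → ℂ) (ν : ι → FinPt F S) (ω : FinPt F S) {t : InfinitePlace F → ℝ} (ht : Pos t)
    (h : ∀ x : InfinitePlace F → H3, Φ (ω, x) = ∑ i ∈ s, c i * Φ (ν i, x)) :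
    Wh Φ ω t = ∑ i ∈ s, c i * Wh Φ (ν i) t ∧ cst Φ ω t = ∑ i ∈ s, c i * cst Φ (ν i) t := by
  have e : slice Φ ω t = fun z => ∑ i ∈ s, c i * slice Φ (ν i) t z := funext fun z => h _
  refine ⟨?_, ?_⟩
  · rw [Wh, e, show (fun z => (∑ i ∈ s, c i * slice Φ (ν i) t z) * chi (-z))
        = fun z => ∑ i ∈ s, c i * (slice Φ (ν i) t z * chi (-z)) from funext fun z => by
      rw [Finset.sum_mul]; exact Finset.sum_congr rfl fun i _ => mul_assoc _ _ _,
      mean_sum s (g := fun i z => c i * (slice Φ (ν i) t z * chi (-z)))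
        fun i _ => (IsPer.const (c i)).mul (hΦ.isPer_Wh _ ht)]
    exact Finset.sum_congr rfl fun i _ => mean_const_mul _ (hΦ.isPer_Wh _ ht)
  · rw [cst, e, mean_sum s (g := fun i z => c i * slice Φ (ν i) t z)
      fun i _ => (IsPer.const (c i)).mul (hΦ.isPer_slice _ ht)]
    exact Finset.sum_congr rfl fun i _ => mean_const_mul _ (hΦ.isPer_slice _ ht)

/-- **The constant term of a function of cuspidal type vanishes.** -/
theorem IsBasic.cst_eq_zero {Φ : Pt F S → ℂ} (hΦ : IsBasic Φ) {v : Place F} (hvS : v ∈ S)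
    (hv : pnorm v = 3) (hc : IsCuspType v Φ) (ω : FinPt F S) {t : InfinitePlace F → ℝ}
    (ht : Pos t) :
    cst Φ ω t = 0 := by
  -- The cuspidal kernel expresses the constant term through those at the vertices of a row,
  set e := eKer (S := S) hv hvS
  set G : Vert S v → ℂ := fun y => cst Φ (ω.set v y) t with hG
  have h := (hΦ.Wh_combo (e.row (ω.1 v)) (fun y => e (ω.1 v) y) (fun y => ω.set v y) ω
      ht fun x => by
    have h2 := (isCuspType_iff_locAct hv hvS Φ).1 hc (ω, x)
    exact h2.symm).2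
  rw [h]
  have hGinv : ∀ x y, G (upMat (1 : Fˣ) x • y) = G y := fun x y => (hΦ.Wh_set ω v x y ht).2
  -- which are constant on unipotent orbits,
  let orb : Vert S v → Set (Vert S v) := fun y => Set.range fun x : F => upMat (1 : Fˣ) x • y
  rw [← Finset.sum_fiberwise_of_maps_to (g := orb) (t := (e.row (ω.1 v)).image orb)
    fun y hy => Finset.mem_image_of_mem orb hy]
  refine Finset.sum_eq_zero fun O hO => ?_
  obtain ⟨y₀, hy₀, rfl⟩ := Finset.mem_image.1 hO
  have horb : ∀ y, orb y = orb y₀ ↔ y ∈ orb y₀ := by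
    intro y
    constructor
    · intro hy
      rw [← hy]
      exact ⟨0, by simp only [upMat_one, one_smul]⟩
    · rintro ⟨x, rfl⟩
      ext c
      constructor
      · rintro ⟨x', rfl⟩
        exact ⟨x' + x, by simp only [upMat_add, mul_smul]⟩
      · rintro ⟨x', rfl⟩
        exact ⟨x' - x, by simp only [← mul_smul, ← upMat_add, sub_add_cancel]⟩
  have hval : ∀ y ∈ (e.row (ω.1 v)).filter (fun y => orb y = orb y₀), G y = G y₀ := by
    intro y hy
    obtain ⟨x, rfl⟩ := (horb y).1 (Finset.mem_filter.1 hy).2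
    exact hGinv x y₀
  rw [Finset.sum_congr rfl fun y hy => show e (ω.1 v) y * cst Φ (ω.set v y) t =
      e (ω.1 v) y * G y₀ by
    rw [← hval y hy], ← Finset.sum_mul]
  -- and the kernel sums to zero on each orbit.
  refine mul_eq_zero_of_left ?_ _
  rw [← cuspLoc_eKer hv hvS (ω.1 v) y₀]
  refine (finsum_mem_eq_sum_of_inter_support_eq _ ?_).symm
  ext y
  simp only [Set.mem_inter_iff, Function.mem_support, Finset.coe_filter,
    Set.mem_ofPred_eq, LKer.mem_row, horb]
  constructor
  · rintro ⟨h1, h2⟩; exact ⟨⟨h2, h1⟩, h2⟩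
  · rintro ⟨⟨-, h1⟩, h2⟩; exact ⟨h1, h2⟩

end Fermat.LT.Mult
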