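import Fermat.Agent.LT.Mult.Arch
import Fermat.Agent.LT.Mult.AtZ

/-!
# Multiplicity: the dimension bound

`dimBoundStatement`: at most `2 ^ |S|` independent eigenfunctions with the cuspidal type on `S`.
An eigenfunction is determined by its Fourier coefficient at the `2 ^ |S|` parameter points:
`AtPlace` propagates this at each place, `AtZ` removes the exceptional places, `Arch` the height.
`LT/Sys/AtomL` uses the bound to know all systems of the form on `L`.
-/

set_option autoImplicit false
open NumberField MeasureTheory Module Filter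
open scoped Classical

namespace Fermat.LT.Mult

variable {F : Type*} [Field F] [NumberField F] {S Z : Set (Place F)} {lam : Place F → ℝ}

variable [Finite S]

omit [Finite ↑S] in
/-- Linear combinations of eigenfunctions are eigenfunctions. -/
lemma isCF_sum {ι : Type*} (s : Finset ι) (c : ι → ℂ) {f : ι → Pt F S → ℂ}
    (hS3 : ∀ v ∈ S, pnorm v = 3) (hf : ∀ i ∈ s, IsCF S Z lam (f i)) :
    IsCF S Z lam fun p => ∑ i ∈ s, c i * f i p where
  basic :=
    { invariant := fun g p q h1 h2 => Finset.sum_congr rfl fun i hi => by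
        rw [(hf i hi).basic.invariant g p q h1 h2]
      continuous := fun ω => continuous_finsetSum _ fun i hi =>
        continuous_const.mul ((hf i hi).basic.continuous ω) }
  cuspType v hv := by
    rw [isCuspType_iff_locAct (hS3 v hv) hv]
    intro p
    change ∑ y ∈ _, _ * ∑ i ∈ s, c i * f i _ = _
    simp only [Finset.mul_sum]
    rw [Finset.sum_comm]
    refine Finset.sum_congr rfl fun i hi => ?_
    rw [← (isCuspType_iff_locAct (hS3 v hv) hv (f i)).1 ((hf i hi).cuspType v hv) p, locAct,
      Finset.mul_sum]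
    exact Finset.sum_congr rfl fun y _ => by ring
  hecke v hv p := by
    have hvS : v ∉ S := fun h => hv (Or.inl h)
    rw [heckeT_eq_locAct hvS, locAct]
    simp only [Finset.mul_sum]
    rw [Finset.sum_comm]
    refine Finset.sum_congr rfl fun i hi => ?_
    have h := (hf i hi).hecke v hv p
    rw [heckeT_eq_locAct hvS, locAct] at h
    calc _ = c i * ∑ y ∈ (sphKer hvS Polynomial.X).row (p.1.1 v),
          sphKer hvS Polynomial.X (p.1.1 v) y * f i (p.1.set v y, p.2) := by
            rw [Finset.mul_sum]; exact Finset.sum_congr rfl fun y _ => by ring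
      _ = (lam v : ℂ) * (c i * f i p) := by rw [h]; ring

omit [Finite S] in
/-- An eigenfunction of the statement satisfies the hypotheses of the coefficient argument. -/
lemma isCF_of_isEigFun {Φ : Pt F S → ℂ} (h : IsEigFun S S Z lam Φ) : IsCF S Z lam Φ :=
  ⟨⟨h.invariant, h.continuous⟩, h.cuspType, h.hecke⟩

variable [IsTotallyComplex F]

/-- The parameter points: one of the two standard vertices at each place of `S`, the standard
vertex elsewhere. -/
noncomputable def parPt (ε : S → Bool) : FinPt F S :=
  ⟨fun v => if h : v ∈ S then stdQ S v (ε ⟨v, h⟩) else stdP S v, by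
    filter_upwards [eventually_stdP (F := F) S, (Set.toFinite S).compl_mem_cofinite] with v hv hS
    simp only [Set.mem_compl_iff] at hS
    simp [hS, hv]⟩

/-- **If the coefficients of an eigenfunction vanish at the parameter points, they vanish at every
finite point.** -/
theorem van_all {Φ : Pt F S → ℂ} (hS3 : ∀ v ∈ S, pnorm v = 3) (hne : S.Nonempty) (hZ : Z.Finite)
    (hΦ : IsCF S Z lam Φ) (h : ∀ ε, Van Φ (parPt ε)) (ω : FinPt F S) : Van Φ ω := by
  obtain ⟨v₀, hv₀⟩ := hne
  have hcst : ∀ μ t, Pos t → cst Φ μ t = 0 := fun μ t ht =>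
    hΦ.basic.cst_eq_zero hv₀ (hS3 v₀ hv₀) (hΦ.cuspType v₀ hv₀) μ ht
  set Z' := hZ.toFinset.filter fun v => v ∉ S with hZ'
  -- exceptional places standard: induct on the places where `μ` differs from a parameter point
  have hstd : ∀ (E : Finset (Place F)) (μ : FinPt F S),
      (∀ v ∈ Z', μ.1 v = stdP S v) → (∀ v, v ∉ E → v ∉ S → μ.1 v = stdP S v) →
      (∀ v, v ∉ E → v ∈ S → ∃ b, μ.1 v = stdQ S v b) → Van Φ μ := by
    intro E
    induction E using Finset.induction_on with
    | empty =>
      intro μ _ h1 h2
      choose b hb using fun v : S => h2 v.1 (Finset.notMem_empty _) v.2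
      rw [show μ = parPt b from Subtype.ext (funext fun v => by
        change μ.1 v = dite _ _ _
        split_ifs with hv
        · exact hb ⟨v, hv⟩
        · exact h1 v (Finset.notMem_empty _) hv)]
      exact h b
    | insert u E hu ih =>
      intro μ h0 h1 h2
      have hset : ∀ y, (u ∈ Z' → y = stdP S u) → (u ∉ S → y = stdP S u) →
          (u ∈ S → ∃ b, y = stdQ S u b) →
          Van Φ (μ.set u y) := by
        intro y hy0 hy1 hy2
        refine ih _ (fun v hv => ?_) (fun v hv hvS => ?_) (fun v hv hvS => ?_)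
        · rcases eq_or_ne v u with rfl | hvu
          · rw [FinPt.set_self]; exact hy0 hv
          · rw [FinPt.set_of_ne _ hvu]; exact h0 v hv
        · rcases eq_or_ne v u with rfl | hvu
          · rw [FinPt.set_self]; exact hy1 hvS
          · rw [FinPt.set_of_ne _ hvu]; exact h1 v (by simp [hvu, hv]) hvS
        · rcases eq_or_ne v u with rfl | hvu
          · rw [FinPt.set_self]; exact hy2 hvS
          · rw [FinPt.set_of_ne _ hvu]; exact h2 v (by simp [hvu, hv]) hvS
      rw [← FinPt.set_eq_self μ u]
      by_cases huS : u ∈ S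
      · refine van_of_cusp (hS3 u huS) huS hΦ.basic (hΦ.cuspType u huS) μ (fun b => ?_) _
        exact hset _ (fun hz => absurd huS (Finset.mem_filter.1 hz).2) (fun h' => absurd huS h')
          (fun _ => ⟨b, rfl⟩)
      by_cases huZ : u ∈ Z
      · refine hset _ (fun _ => ?_) (fun _ => ?_) (fun h' => absurd h' huS) <;>
          exact h0 u (Finset.mem_filter.2 ⟨hZ.mem_toFinset.2 huZ, huS⟩)
      exact van_of_hecke hΦ.basic huS (hΦ.hecke u (by simp [huS, huZ])) μ
        (hset _ (fun _ => rfl) (fun _ => rfl) (fun h' => absurd h' huS)) _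
  have hP : ∀ μ : FinPt F S, (∀ v ∈ Z', μ.1 v = stdP S v) → Van Φ μ := by
    intro μ hμ
    have hfin : {v | μ.1 v ≠ stdP S v}.Finite := by
      have h' : ∀ᶠ v in cofinite, μ.1 v = stdP S v := by
        filter_upwards [μ.2, eventually_stdP (F := F) S] with v h1 h2
        rw [h1, h2]
      exact eventually_cofinite.1 h'
    refine hstd (hfin.toFinset ∪ (Set.toFinite S).toFinset) μ hμ (fun v hv _ => ?_)
      fun v hv hvS => ?_
    · simp only [Finset.mem_union, Set.Finite.mem_toFinset, Set.mem_ofPred_eq, not_or,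
        not_not] at hv
      exact hv.1
    · exact absurd (Finset.mem_union_right _ ((Set.toFinite S).mem_toFinset.2 hvS)) hv
  -- then free the exceptional places one at a time
  have hR : ∀ R ⊆ Z', ∀ μ : FinPt F S, (∀ v ∈ Z' \ R, μ.1 v = stdP S v) → Van Φ μ := by
    intro R
    induction R using Finset.induction_on with
    | empty => intro _ μ hμ; exact hP μ (by simpa using hμ)
    | insert u R hu ih =>
      intro hsub μ hμ
      have huZ : u ∈ Z' := hsub (Finset.mem_insert_self _ _)
      refine van_remove hΦ.basic hcst (Z' \ insert u R)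
        (fun v hv => (Finset.mem_filter.1 (Finset.mem_sdiff.1 hv).1).2) (Finset.mem_filter.1 huZ).2
        (by simp) (fun ν hν => ih (fun v hv => hsub (Finset.mem_insert_of_mem hv)) ν fun v
          hv => hν v ?_) μ hμ
      rw [Finset.mem_sdiff] at hv
      by_cases hvu : v = u
      · simp [hvu]
      · simp [hvu, hv.1, hv.2]
  exact hR Z' (subset_refl _) ω (by simp)

/-- An eigenfunction without coefficients is zero. -/
theorem eq_zero_of_van {Φ : Pt F S → ℂ} {v₀ : Place F} (hv₀ : v₀ ∈ S) (hv3 : pnorm v₀ = 3)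
    (hΦ : IsBasic Φ) (hc : IsCuspType v₀ Φ) (h : ∀ ω, Van Φ ω) : Φ = 0 := by
  funext p
  obtain ⟨ω, X⟩ := p
  set t := fun u => (H3.coord (X u)).2
  have ht : Pos t := fun u => H3.coord_pos _
  have h0 := hΦ.combo_eq_zero (Finset.univ : Finset Unit) (fun _ => 1) (fun _ => ω) ht
    (by simp [hΦ.cst_eq_zero hv₀ hv3 hc ω ht])
    (fun a => by simp [h _ _ (pos_sc a ht)]) (fun u => (H3.coord (X u)).1)
  simpa [slice, t, pnt_coord] using h0

end Fermat.LT.Mult

namespace Fermat.LT

variable (F : Type*) [Field F] [NumberField F]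

/-- **At most `2 ^ |S|` independent eigenfunctions.** -/
theorem dimBoundStatement : DimBoundStatement F := by
  intro S Z lam hF hS hZ hne hS3 _ f hf hli
  have : Finite S := hS.to_subtype
  have := hF
  let _ : Fintype S := hS.fintype
  -- the coefficients at the parameter points of more than `2 ^ |S|` functions are dependent
  set V : Fin (2 ^ S.ncard + 1) → (S → Bool) → ℂ :=
    fun i ε => Mult.Wh (f i) (Mult.parPt ε) fun _ => 1
  have hV : ¬ LinearIndependent ℂ V := fun h => by
    have h1 := h.fintype_card_le_finrank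
    rw [Fintype.card_fin, finrank_fintype_fun_eq_card, Fintype.card_fun, Fintype.card_bool,
      ← Nat.card_eq_fintype_card, Nat.card_coe_set_eq] at h1
    omega
  obtain ⟨c, hc, i₀, hi₀⟩ := Fintype.not_linearIndependent_iff.1 hV
  have hCF : ∀ i, Mult.IsCF S Z lam (f i) := fun i => Mult.isCF_of_isEigFun (hf i)
  -- their combination has zero coefficient at the parameter points, hence is zero
  set Φ : Pt F S → ℂ := fun p => ∑ i, c i * f i p with hΦdef
  have hΦ : Mult.IsCF S Z lam Φ := Mult.isCF_sum _ c hS3 fun i _ => hCF i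
  have hpar : ∀ ε, Mult.Van Φ (Mult.parPt ε) := fun ε t ht => by
    rw [hΦdef, Mult.Wh_sum _ _ (fun i _ => (hCF i).basic) _ ht]
    have h2 := congrFun hc ε
    simp only [Finset.sum_apply, Pi.smul_apply, smul_eq_mul, Pi.zero_apply, V] at h2
    calc ∑ i, c i * Mult.Wh (f i) (Mult.parPt ε) t
        = (∏ w, Mult.rho (t w)) * ∑ i, c i * Mult.Wh (f i) (Mult.parPt ε) (fun _ => 1) := by
          rw [Finset.mul_sum]
          refine Finset.sum_congr rfl fun i _ => ?_
          obtain ⟨C, hC⟩ := (hf i).bounded
          rw [Mult.Wh_eq_rho_mul (hCF i).basic hC (hf i).arch _ ht]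
          ring
      _ = 0 := by rw [h2, mul_zero]
  obtain ⟨v₀, hv₀⟩ := hne
  have hzero : Φ = 0 := Mult.eq_zero_of_van hv₀ (hS3 v₀ hv₀) hΦ.basic (hΦ.cuspType v₀ hv₀)
    (Mult.van_all hS3 ⟨v₀, hv₀⟩ hZ hΦ hpar)
  refine hi₀ (Fintype.linearIndependent_iff.1 hli c ?_ i₀)
  funext p
  simpa [hΦdef, Finset.sum_apply, smul_eq_mul] using congrFun hzero p

end Fermat.LT
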