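import Mathlib

/-!
# Multiplicity: mean values of lattice periodic functions on `ℂ ^ r`

For a totally complex number field `F`, a function on `InfinitePlace F → ℂ` invariant under the
translations by `M 𝓞_F` has a mean value, independent of `M`, invariant under translations and
under multiplication by elements of `F`.
-/

set_option autoImplicit false
open NumberField MeasureTheory Module
open scoped Classical
set_option linter.unusedSectionVars false

namespace Fermat.LT.Mult

variable (F : Type*) [Field F] [NumberField F]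

/-- The index set of an integral basis. -/
abbrev BIdx : Type _ := Free.ChooseBasisIndex ℤ (𝓞 F)

/-- The torus `ℝ^d ⧸ ℤ^d`. -/
abbrev Tor : Type _ := BIdx F → UnitAddCircle

/-- The Haar probability measure on the torus. -/
noncomputable abbrev tmeas : Measure (Tor F) :=
  Measure.pi fun _ => (AddCircle.haarAddCircle : Measure UnitAddCircle)

variable {F}

/-- All infinite embeddings at once. -/
noncomputable def emb : F →+* (InfinitePlace F → ℂ) := RingHom.pi fun w => w.embedding

/-- The component of `emb` at a place. -/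
@[simp] lemma emb_apply (x : F) (w : InfinitePlace F) : emb x w = w.embedding x := rfl

variable [IsTotallyComplex F]

/-- The mixed space of a totally complex field. -/
noncomputable def mixEquiv : mixedEmbedding.mixedSpace F ≃ₗ[ℝ] (InfinitePlace F → ℂ) where
  toFun p := fun w => p.2 ⟨w, IsTotallyComplex.isComplex w⟩
  invFun z := (0, fun w => z w.1)
  left_inv p := by
    refine Prod.ext (funext fun w => ?_) rfl
    exact absurd w.2 (InfinitePlace.not_isReal_iff_isComplex.2 (IsTotallyComplex.isComplex w.1))
  right_inv _ := rfl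
  map_add' _ _ := rfl
  map_smul' _ _ := rfl

/-- The integral basis as a real basis of `ℂ ^ r`. -/
noncomputable def basisR : Basis (BIdx F) ℝ (InfinitePlace F → ℂ) :=
  (mixedEmbedding.latticeBasis F).map mixEquiv

/-- The members of the real basis. -/
lemma basisR_apply (i : BIdx F) : basisR i = emb ((RingOfIntegers.basis F i : 𝓞 F) : F) := by
  rw [basisR, Basis.map_apply, mixedEmbedding.latticeBasis_apply, integralBasis_apply]
  rfl

/-- Coordinates `(ℝ/ℤ)^d → ℂ^r` before quotient. -/
noncomputable def par (M : ℕ) (s : BIdx F → ℝ) : InfinitePlace F → ℂ :=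
  (M : ℝ) • (basisR (F := F)).equivFun.symm s

/-- The parametrisation in the basis. -/
lemma par_apply (M : ℕ) (s : BIdx F → ℝ) :
    par (F := F) M s = ∑ i, ((M : ℝ) * s i) • basisR i := by
  simp [par, Basis.equivFun_symm_apply, Finset.smul_sum, smul_smul]

/-- The parametrisation is additive. -/
lemma par_add (M : ℕ) (s t : BIdx F → ℝ) : par (F := F) M (s + t) = par M s + par M t := by
  simp [par, map_add, smul_add]

/-- Integral coordinates parametrise the lattice `M 𝓞_F`. -/
lemma par_int (M : ℕ) (k : BIdx F → ℤ) :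
    par (F := F) M (fun i => (k i : ℝ))
      = emb ((M : F) * ((∑ i, k i • RingOfIntegers.basis F i : 𝓞 F) : F)) := by
  rw [par_apply, map_mul, map_natCast]
  simp only [basisR_apply]
  rw [show (∑ i, k i • RingOfIntegers.basis F i : 𝓞 F) = ∑ i,
      ((k i : 𝓞 F) * RingOfIntegers.basis F i) by
    simp [zsmul_eq_mul]]
  push_cast
  rw [map_sum, Finset.mul_sum]
  refine Finset.sum_congr rfl fun i _ => funext fun w => ?_
  simp [mul_assoc, Complex.real_smul]

/-- The parametrisation is continuous. -/
lemma continuous_par (M : ℕ) : Continuous (par (F := F) M) := by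
  have h : par (F := F) M = fun s => ∑ i, ((M : ℝ) * s i) • basisR i := funext (par_apply M)
  rw [h]; fun_prop

/-- For `M ≠ 0` the parametrisation is onto. -/
lemma par_surjective {M : ℕ} (hM : M ≠ 0) : Function.Surjective (par (F := F) M) := fun z =>
  ⟨(M : ℝ)⁻¹ • basisR.equivFun z, by
    rw [par, map_smul, LinearEquiv.symm_apply_apply, smul_smul,
      mul_inv_cancel₀ (by exact_mod_cast hM), one_smul]⟩

/-- For `M ≠ 0` the parametrisation is injective. -/
lemma par_injective {M : ℕ} (hM : M ≠ 0) : Function.Injective (par (F := F) M) := fun s t h => by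
  have h2 := smul_right_injective (InfinitePlace F → ℂ) (r := (M : ℝ)) (by exact_mod_cast hM) h
  exact (basisR (F := F)).equivFun.symm.injective h2

/-- Invariance under `M 𝓞_F`. -/
def Per (M : ℕ) (g : (InfinitePlace F → ℂ) → ℂ) : Prop :=
  ∀ (z : InfinitePlace F → ℂ) (l : 𝓞 F), g (z + emb ((M : F) * (l : F))) = g z

/-- A period stays a period after multiplication by a natural number. -/
lemma Per.mul_right {M : ℕ} {g : (InfinitePlace F → ℂ) → ℂ} (h : Per M g) (N : ℕ) :
    Per (M * N) g := fun z l => by
  rw [← h z ((N : 𝓞 F) * l)]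
  push_cast
  rw [mul_assoc]

/-- A period stays one after multiplication on the left by a natural number. -/
lemma Per.mul_left {M : ℕ} {g : (InfinitePlace F → ℂ) → ℂ} (h : Per M g) (N : ℕ) :
    Per (N * M) g := mul_comm M N ▸ h.mul_right N

/-- Products of periodic functions are periodic. -/
lemma Per.mul {M : ℕ} {g₁ g₂ : (InfinitePlace F → ℂ) → ℂ} (h₁ : Per M g₁) (h₂ : Per M g₂) :
    Per M fun z => g₁ z * g₂ z := fun z l => by
  change g₁ _ * g₂ _ = _
  rw [h₁, h₂]

/-- Translating the argument preserves periodicity. -/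
lemma Per.comp_add {M : ℕ} {g : (InfinitePlace F → ℂ) → ℂ} (h : Per M g)
    (z₀ : InfinitePlace F → ℂ) :
    Per M fun z => g (z + z₀) := fun z l => by
  change g _ = _
  rw [add_right_comm, h]

/-- The representative in `[0,1)`. -/
noncomputable def rep (q : UnitAddCircle) : ℝ := (AddCircle.measurableEquivIco 1 0 q : ℝ)

/-- The representative lifts its class. -/
lemma coe_rep (q : UnitAddCircle) : ((rep q : ℝ) : UnitAddCircle) = q :=
  (AddCircle.equivIco 1 0).symm_apply_apply q

/-- The representative is measurable. -/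
lemma measurable_rep : Measurable rep :=
  measurable_subtype_coe.comp (AddCircle.measurableEquivIco 1 0).measurable

/-- A periodic function read on the torus. -/
noncomputable def tlift (M : ℕ) (g : (InfinitePlace F → ℂ) → ℂ) (q : Tor F) : ℂ :=
  g (par M fun i => rep (q i))

/-- A periodic function read on the torus is its value at any representative. -/
lemma tlift_mk {M : ℕ} {g : (InfinitePlace F → ℂ) → ℂ} (hg : Per M g) (s : BIdx F → ℝ) :
    tlift M g (fun i => (s i : UnitAddCircle)) = g (par M s) := by
  have h : ∀ i, ∃ k : ℤ, rep (s i : UnitAddCircle) = s i + (k : ℝ) := fun i => by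
    have := coe_rep (s i : UnitAddCircle)
    rw [← sub_eq_zero, ← AddCircle.coe_sub, AddCircle.coe_eq_zero_iff] at this
    obtain ⟨k, hk⟩ := this
    exact ⟨k, by simp at hk; linarith⟩
  choose k hk using h
  rw [tlift, show (fun i => rep ((s i : UnitAddCircle))) = s + fun i => (k i : ℝ) from funext hk,
    par_add, par_int, hg]

/-- A continuous periodic function is continuous on the torus. -/
lemma continuous_tlift {M : ℕ} {g : (InfinitePlace F → ℂ) → ℂ} (hg : Per M g) (hc : Continuous g) :
    Continuous (tlift M g) := by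
  have hq : IsOpenQuotientMap (Pi.map fun (_ : BIdx F) (x : ℝ) => (x : UnitAddCircle)) :=
    IsOpenQuotientMap.piMap fun _ => QuotientAddGroup.isOpenQuotientMap_mk
  rw [← hq.continuous_comp_iff]
  have : tlift M g ∘ (Pi.map fun (_ : BIdx F) (x : ℝ) => (x : UnitAddCircle)) = g ∘ par M :=
    funext fun s => tlift_mk hg s
  rw [this]
  exact hc.comp (continuous_par M)

/-- Periodic continuous functions are integrable on the torus. -/
lemma integrable_tlift {M : ℕ} {g : (InfinitePlace F → ℂ) → ℂ} (hg : Per M g) (hc : Continuous g) :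
    Integrable (tlift M g) (tmeas F) :=
  (continuous_tlift hg hc).integrable_of_hasCompactSupport (HasCompactSupport.of_compactSpace _)

/-- The mean over a period torus. -/
noncomputable def meanM (M : ℕ) (g : (InfinitePlace F → ℂ) → ℂ) : ℂ := ∫ q, tlift M g q ∂tmeas F

/-- The mean over a period torus is translation invariant. -/
lemma meanM_translate {M : ℕ} (hM : M ≠ 0) {g : (InfinitePlace F → ℂ) → ℂ} (hg : Per M g)
    (z₀ : InfinitePlace F → ℂ) : meanM M (fun z => g (z + z₀)) = meanM M g := by
  obtain ⟨s₀, rfl⟩ := par_surjective hM z₀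
  rw [meanM, meanM, ← integral_add_right_eq_self (μ := tmeas F) (tlift M g)
    (fun i => (s₀ i : UnitAddCircle))]
  refine integral_congr_ae (Filter.Eventually.of_forall fun q => ?_)
  change g (par M (fun i => rep (q i)) + par M s₀) = _
  rw [← par_add, ← tlift_mk hg]
  congr 1
  funext i
  simp [coe_rep]

omit [IsTotallyComplex F] in
/-- Some integer multiple is integral. -/
lemma exists_den (a : F) : ∃ D : ℕ, D ≠ 0 ∧ ∃ l : 𝓞 F, (D : F) * a = (l : F) := by
  obtain ⟨x, y, hy, rfl⟩ := IsFractionRing.div_surjective (A := 𝓞 F) a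
  have hy0 : y ≠ 0 := nonZeroDivisors.ne_zero hy
  obtain ⟨c, hc⟩ := Ideal.mem_span_singleton.1 (Ideal.absNorm_mem (Ideal.span ({y} : Set (𝓞 F))))
  refine ⟨Ideal.absNorm (Ideal.span ({y} : Set (𝓞 F))), ?_, c * x, ?_⟩
  · rw [ne_eq, Ideal.absNorm_eq_zero_iff, Ideal.span_singleton_eq_bot]
    exact hy0
  · have hc' := congrArg (algebraMap (𝓞 F) F) hc
    rw [map_natCast, map_mul] at hc'
    rw [hc']
    push_cast
    field_simp [show (y : F) ≠ 0 from by exact_mod_cast hy0]

/-- The mean does not change along a surjective linear map carrying one lattice of periods into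
another. -/
lemma meanM_comp_linear {M M' : ℕ} (hM : M ≠ 0) (hM' : M' ≠ 0)
    (L : (InfinitePlace F → ℂ) →ₗ[ℝ] (InfinitePlace F → ℂ)) (hs : Function.Surjective L)
    (hL : ∀ l : 𝓞 F, ∃ l' : 𝓞 F, L (emb ((M' : F) * (l : F))) = emb ((M : F) * (l' : F)))
    {g : (InfinitePlace F → ℂ) → ℂ} (hg : Per M g) (hc : Continuous g) :
    meanM M' (fun z => g (L z)) = meanM M g := by
  choose l' hl' using fun j => hL (RingOfIntegers.basis F j)
  -- the map is an integral matrix between the two parametrisations
  let A : BIdx F → BIdx F → ℤ := fun i j => (RingOfIntegers.basis F).repr (l' j) i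
  let φ : Tor F →+ Tor F := AddMonoidHom.mk' (fun q i => ∑ j, A i j • q j) fun p q => by
    funext i; simp [smul_add, Finset.sum_add_distrib]
  let As : (BIdx F → ℝ) → BIdx F → ℝ := fun s i => ∑ j, (A i j : ℝ) * s j
  have hmk : ∀ s : BIdx F → ℝ, φ (fun i => (s i : UnitAddCircle))
      = fun i => ((As s i : ℝ) : UnitAddCircle) := fun s => by
    funext i
    change ∑ j, A i j • (s j : UnitAddCircle) = _
    rw [show As s i = ∑ j, A i j • s j by simp [As, zsmul_eq_mul]]
    induction (Finset.univ : Finset (BIdx F)) using Finset.induction_on with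
    | empty => simp
    | insert j t hj ih => rw [Finset.sum_insert hj, Finset.sum_insert hj, ih, AddCircle.coe_add,
                            AddCircle.coe_zsmul]
  have hpar : ∀ s : BIdx F → ℝ, L (par M' s) = par M (As s) := fun s => by
    rw [par_apply, par_apply, map_sum]
    have hb : ∀ j, L ((M' : ℝ) • basisR j) = ∑ i, ((M : ℝ) * A i j) • basisR i := fun j => by
      have e1 : (M' : ℝ) • basisR j = emb ((M' : F) * (RingOfIntegers.basis F j : F)) := by
        rw [map_mul, map_natCast, basisR_apply]
        funext w; simp [Complex.real_smul]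
      have e2 := par_int (F := F) M (fun i => A i j)
      rw [par_apply] at e2
      rw [e1, hl', e2]
      congr 3
      exact ((RingOfIntegers.basis F).sum_repr (l' j)).symm
    have hb2 : ∀ j, L (((M' : ℝ) * s j) • basisR j) =
        ∑ i, ((M : ℝ) * A i j * s j) • basisR i := fun j => by
      rw [mul_comm ((M' : ℝ)) (s j), ← smul_smul, map_smul, hb, Finset.smul_sum]
      simp only [smul_smul]
      exact Finset.sum_congr rfl fun i _ => by rw [mul_comm]
    rw [Finset.sum_congr rfl fun j _ => hb2 j, Finset.sum_comm]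
    refine Finset.sum_congr rfl fun i _ => ?_
    rw [← Finset.sum_smul]
    simp [As, Finset.mul_sum, mul_assoc]
  -- the induced endomorphism of the torus preserves Haar measure
  have hφc : Continuous φ := by
    change Continuous fun (q : Tor F) i => ∑ j, A i j • q j
    fun_prop
  have hφs : Function.Surjective φ := by
    intro y
    obtain ⟨z, hz⟩ := hs (par M fun i => rep (y i))
    obtain ⟨s, rfl⟩ := par_surjective hM' z
    refine ⟨fun i => (s i : UnitAddCircle), ?_⟩
    have : As s = fun i => rep (y i) := par_injective hM (by rw [← hpar]; exact hz)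
    rw [hmk, this]
    exact funext fun i => coe_rep _
  have hmp : MeasurePreserving φ (tmeas F) (tmeas F) := φ.measurePreserving hφc hφs rfl
  rw [meanM, meanM]
  conv_rhs => rw [← hmp.map_eq]
  rw [integral_map hφc.aemeasurable (continuous_tlift hg hc).aestronglyMeasurable]
  refine integral_congr_ae (Filter.Eventually.of_forall fun q => ?_)
  have hq : q = fun i => ((rep (q i) : ℝ) : UnitAddCircle) := funext fun i => (coe_rep _).symm
  change g (L (par M' fun i => rep (q i))) = tlift M g (φ q)
  conv_rhs => rw [hq, hmk, tlift_mk hg]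
  rw [hpar]

/-- Change of lattice along multiplication by `a`. -/
lemma meanM_comp_mul {M M' : ℕ} (hM : M ≠ 0) (hM' : M' ≠ 0) {a : F} (ha : a ≠ 0)
    (h : ∀ l : 𝓞 F, ∃ l' : 𝓞 F, a * ((M' : F) * (l : F)) = (M : F) * (l' : F))
    {g : (InfinitePlace F → ℂ) → ℂ} (hg : Per M g) (hc : Continuous g) :
    Per M' (fun z => g (emb a * z)) ∧ meanM M' (fun z => g (emb a * z)) = meanM M g := by
  have hg' : Per M' (fun z => g (emb a * z)) := fun z l => by
    obtain ⟨l', hl⟩ := h l
    change g _ = g _
    rw [mul_add, ← map_mul, hl, hg]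
  refine ⟨hg', meanM_comp_linear hM hM' (LinearMap.mulLeft ℝ (emb a)) (fun z => ⟨emb a⁻¹ * z, ?_⟩)
    (fun l => ?_) hg hc⟩
  · rw [LinearMap.mulLeft_apply, ← mul_assoc, ← map_mul, mul_inv_cancel₀ ha, map_one, one_mul]
  · obtain ⟨l', hl⟩ := h l
    exact ⟨l', by rw [LinearMap.mulLeft_apply, ← map_mul, hl]⟩

/-- The mean does not change on a sublattice of periods. -/
lemma meanM_eq_mul {M : ℕ} (hM : M ≠ 0) {N : ℕ} (hN : N ≠ 0) {g : (InfinitePlace F → ℂ) → ℂ}
    (hg : Per M g) (hc : Continuous g) : meanM (M * N) g = meanM M g := by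
  have h := (meanM_comp_mul hM (mul_ne_zero hM hN) (one_ne_zero (α := F))
    (fun l => ⟨(N : 𝓞 F) * l, by push_cast; ring⟩) hg hc).2
  simpa using h

/-- The mean value of a periodic function. -/
noncomputable def mean (g : (InfinitePlace F → ℂ) → ℂ) : ℂ :=
  if h : ∃ M : ℕ, M ≠ 0 ∧ Per M g then meanM h.choose g else 0

/-- The mean value is the mean over any period torus. -/
lemma mean_eq {M : ℕ} (hM : M ≠ 0) {g : (InfinitePlace F → ℂ) → ℂ} (hg : Per M g)
    (hc : Continuous g) :
    mean g = meanM M g := by
  have h : ∃ M : ℕ, M ≠ 0 ∧ Per M g := ⟨M, hM, hg⟩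
  rw [mean, dif_pos h, ← meanM_eq_mul h.choose_spec.1 hM h.choose_spec.2 hc, mul_comm,
    meanM_eq_mul hM h.choose_spec.1 hg hc]

/-- Functions with a period lattice, continuous. -/
def IsPer (g : (InfinitePlace F → ℂ) → ℂ) : Prop := Continuous g ∧ ∃ M : ℕ, M ≠ 0 ∧ Per M g

/-- Products of periodic functions are periodic. -/
lemma IsPer.mul {g₁ g₂ : (InfinitePlace F → ℂ) → ℂ} (h₁ : IsPer g₁) (h₂ : IsPer g₂) :
    IsPer fun z => g₁ z * g₂ z := by
  obtain ⟨c₁, M, hM, p₁⟩ := h₁
  obtain ⟨c₂, N, hN, p₂⟩ := h₂
  exact ⟨c₁.mul c₂, M * N, mul_ne_zero hM hN, (p₁.mul_right N).mul (p₂.mul_left M)⟩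

/-- Constants have a period lattice. -/
lemma IsPer.const (c : ℂ) : IsPer fun _ : InfinitePlace F → ℂ => c :=
  ⟨continuous_const, 1, one_ne_zero, fun _ _ => rfl⟩

/-- Finite sums of periodic functions are periodic. -/
lemma IsPer.sum {ι : Type*} (s : Finset ι) {g : ι → (InfinitePlace F → ℂ) → ℂ}
    (h : ∀ i ∈ s, IsPer (g i)) : IsPer fun z => ∑ i ∈ s, g i z := by
  induction s using Finset.induction_on with
  | empty => simpa using IsPer.const 0
  | insert i t hi ih =>
    obtain ⟨c₁, M, hM, p₁⟩ := h i (Finset.mem_insert_self i t)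
    obtain ⟨c₂, N, hN, p₂⟩ := ih fun j hj => h j (Finset.mem_insert_of_mem hj)
    simp only [Finset.sum_insert hi]
    refine ⟨c₁.add c₂, M * N, mul_ne_zero hM hN, fun z l => ?_⟩
    change g i _ + ∑ j ∈ t, g j _ = _
    rw [p₁.mul_right N z l]
    exact congrArg (g i z + ·) (p₂.mul_left M z l)

/-- The mean value is additive. -/
lemma mean_add {g₁ g₂ : (InfinitePlace F → ℂ) → ℂ} (h₁ : IsPer g₁) (h₂ : IsPer g₂) :
    mean (fun z => g₁ z + g₂ z) = mean g₁ + mean g₂ := by
  obtain ⟨c₁, M, hM, p₁⟩ := h₁
  obtain ⟨c₂, N, hN, p₂⟩ := h₂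
  have q₁ := p₁.mul_right N
  have q₂ := p₂.mul_left M
  have hMN := mul_ne_zero hM hN
  have q : Per (M * N) (fun z => g₁ z + g₂ z) := fun z l => by
    change g₁ _ + g₂ _ = _
    rw [q₁, q₂]
  rw [mean_eq hMN q₁ c₁, mean_eq hMN q₂ c₂, mean_eq hMN q (c₁.add c₂), meanM, meanM, meanM,
    ← integral_add (integrable_tlift q₁ c₁) (integrable_tlift q₂ c₂)]
  rfl

/-- The mean value commutes with scalar multiples. -/
lemma mean_const_mul (c : ℂ) {g : (InfinitePlace F → ℂ) → ℂ} (h : IsPer g) :
    mean (fun z => c * g z) = c * mean g := by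
  obtain ⟨hc, M, hM, p⟩ := h
  have q : Per M (fun z => c * g z) := fun z l => by change c * g _ = _; rw [p]
  rw [mean_eq hM p hc, mean_eq hM q (continuous_const.mul hc), meanM, meanM,
    ← integral_const_mul]
  rfl

/-- The mean of zero is zero. -/
lemma mean_zero : mean (fun _ : InfinitePlace F → ℂ => (0 : ℂ)) = 0 := by
  rw [mean_eq (one_ne_zero (α := ℕ)) (fun _ _ => rfl) continuous_const, meanM]
  simp [tlift]

/-- The mean value commutes with finite sums. -/
lemma mean_sum {ι : Type*} (s : Finset ι) {g : ι → (InfinitePlace F → ℂ) → ℂ}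
    (h : ∀ i ∈ s, IsPer (g i)) : mean (fun z => ∑ i ∈ s, g i z) = ∑ i ∈ s, mean (g i) := by
  induction s using Finset.induction_on with
  | empty => simpa using mean_zero (F := F)
  | insert i t hi ih =>
    simp only [Finset.sum_insert hi]
    rw [mean_add (h i (Finset.mem_insert_self i t))
      (IsPer.sum t fun j hj => h j (Finset.mem_insert_of_mem hj)),
      ih fun j hj => h j (Finset.mem_insert_of_mem hj)]

/-- The mean value is translation invariant. -/
lemma mean_translate {g : (InfinitePlace F → ℂ) → ℂ} (h : IsPer g) (z₀ : InfinitePlace F → ℂ) :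
    mean (fun z => g (z + z₀)) = mean g := by
  obtain ⟨hc, M, hM, p⟩ := h
  rw [mean_eq hM p hc, mean_eq hM (p.comp_add z₀) (hc.comp (continuous_id.add continuous_const)),
    meanM_translate hM p]

/-- The mean is invariant under multiplication by elements of `F`. -/
lemma mean_comp_mul {g : (InfinitePlace F → ℂ) → ℂ} (h : IsPer g) {a : F} (ha : a ≠ 0) :
    IsPer (fun z => g (emb a * z)) ∧ mean (fun z => g (emb a * z)) = mean g := by
  obtain ⟨hc, M, hM, p⟩ := h
  obtain ⟨D, hD, l₀, hl⟩ := exists_den a
  obtain ⟨h1, h2⟩ := meanM_comp_mul hM (mul_ne_zero hD hM) ha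
    (fun l => ⟨l₀ * l, by push_cast; linear_combination ((M : F) * (l : F)) * hl⟩) p hc
  have hc' : Continuous fun z => g (emb a * z) := hc.comp (continuous_const.mul continuous_id)
  exact ⟨⟨hc', _,
    mul_ne_zero hD hM, h1⟩, by rw [mean_eq (mul_ne_zero hD hM) h1 hc', h2, mean_eq hM p hc]⟩

end Fermat.LT.Mult
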